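import Mathlib
import Fermat.Agent.MU.Lib.BadRed.Nodal.KeyMain
import Fermat.Agent.MU.Lib.BadRed.Nodal.P.Defs
import Fermat.Agent.MU.Lib.BadRed.Nodal.KeyJacobi

section MergeWrap_Lib_BadRed_Nodal_P_HighLevel -- from Lib/BadRed/Nodal/P/HighLevel.lean

set_option autoImplicit false

/-!
# Cluster T / S33-new, seat P-HL (helper12): the HIGH-LEVEL nodal key lemma for the exponent `p`

Residue characteristic `p` (`p` is in the maximal ideal of `A`).  Design: helper66's note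
"S33-new, elementary proof of COV", step (HL).

`kl_main_p`: let `u₀` have divisor `p * ∑ (P i - R i)` with `P i` in the residue disc of `Rb i`,
`u₀(P0) = 1`, and suppose that `u₀ - 1` has level `> p / (p - 1)`:
`(u₀ - 1) / d` is integral for both valuations for a constant `d` with `v(d) > p / (p - 1)`
(i.e. `d ^ (p - 1) / p ^ p` is in the maximal ideal of `A`).  Then `P i = R i` for all `i`.

Proof.  `a_i = t_i(P_i)`, `a = a_*` of maximal absolute value, `∏ t_i / (t_i - a_i) = 1 + a Ξ`,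
`red Ξ = ∑ c̄_i / t̄_i` (simple pole at `Rb_*`), `V = (1 + a Ξ) ^ p`.
* (A) `v(a) > 1 / (p - 1)`: `V = 1 + (p a) Y`, `red Y = red Ξ`, and `kl_core₂` applies verbatim
  (the level is not used: `kl_main_p_of_small`).
* (B) `v(a) ≤ 1 / (p - 1)`: `V = 1 + a ^ p Z`, `red Z = (red Ξ) ^ p + κ̄ red Ξ` has a pole of
  order `p` at `Rb_*`; `(u₀ V - 1) / a ^ p` has the same reduction (level `> p / (p - 1)`), but
  `u₀ V` has neither zero nor pole on the disc of `Rb_*`: contradiction with `push`.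
-/

noncomputable section

open AlgebraicCurve Fermat.Agent.RR Fermat.Agent.Deuring

namespace Fermat.Agent.BadRed

namespace NKP

open NK
open Fermat.Agent.S18Key (ord_neg' ord_nonneg_add ord_nonneg_sub ord_nonneg_mul ord_const_nonneg
  ord_one_nonneg ord_add_ge_of_ge ord_add_eq_of_lt mapDomain_apply_eq_sum sum_le_mapDomain
  mapDomain_nonneg le_mapDomain add_le_mapDomain kl_ord_const_mul kl_ord_mul_const
  kl_ord_div_const kl_ord_sum_ge kl_ord_prod kl_ord_pow kl_ord_sub_ge_of_ge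
  kl_ne_zero_of_ord_ne_zero kl_const_eq_zero_of_ord_pos)

/-! ### pure algebra -/

/-- `(1 + z) ^ p = 1 + p z + p z² w + z ^ p` with `w` in any subring containing `z`. -/
theorem exists_binom_prime {B : Type*} [CommRing B] (R : Subring B) {p : ℕ} (hp : p.Prime)
    {z : B} (hz : z ∈ R) :
    ∃ w ∈ R, (1 + z) ^ p = 1 + (p : B) * z + (p : B) * z ^ 2 * w + z ^ p := by
  classical
  have h2 := hp.two_le
  have hmem : p - 1 ∈ Finset.Ioo 0 p := Finset.mem_Ioo.mpr ⟨by omega, by omega⟩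
  refine ⟨∑ k ∈ (Finset.Ioo 0 p).erase (p - 1), z ^ (p - k - 2) * ((p.choose k / p : ℕ) : B),
    sum_mem fun k _ => mul_mem (pow_mem hz _) (natCast_mem _ _), ?_⟩
  rw [add_pow_prime_eq' hp (1 : B) z, one_pow, ← Finset.add_sum_erase _ _ hmem]
  have e1 : p - (p - 1) = 1 := by omega
  have e2 : p.choose (p - 1) / p = 1 := by
    rw [Nat.choose_symm (by omega : 1 ≤ p), Nat.choose_one_right, Nat.div_self hp.pos]
  have e3 : ∑ k ∈ (Finset.Ioo 0 p).erase (p - 1),
      (1 : B) ^ k * z ^ (p - k) * ((p.choose k / p : ℕ) : B) =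
      z ^ 2 * ∑ k ∈ (Finset.Ioo 0 p).erase (p - 1),
        z ^ (p - k - 2) * ((p.choose k / p : ℕ) : B) := by
    rw [Finset.mul_sum]
    refine Finset.sum_congr rfl fun k hk => ?_
    obtain ⟨hk1, hk2⟩ := Finset.mem_erase.mp hk
    obtain ⟨hk3, hk4⟩ := Finset.mem_Ioo.mp hk2
    have e : p - k = 2 + (p - k - 2) := by omega
    rw [one_pow, one_mul]
    conv_lhs => rw [e, pow_add]
    ring
  rw [e1, e2, e3, one_pow, pow_one, Nat.cast_one, mul_one, one_mul]
  ring

/-- strict ultrametric equality. -/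
theorem ord_add_eq_of_ord_lt {K' F' : Type*} [Field K'] [Field F'] [Algebra K' F']
    (v : Place K' F') {f g : F'} (hf0 : f ≠ 0) (h : g ≠ 0 → v.ord f < v.ord g) :
    v.ord (f + g) = v.ord f := by
  by_cases hg0 : g = 0
  · rw [hg0, add_zero]
  have h' := h hg0
  have hfg : f + g ≠ 0 := by
    intro h0
    have : f = -g := eq_neg_of_add_eq_zero_left h0
    rw [this, ord_neg'] at h'
    exact lt_irrefl _ h'
  have h1 := Fermat.Agent.S24Res.ord_add_ge v hf0 hg0 hfg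
  have h2 := Fermat.Agent.S24Res.ord_add_ge v hfg (neg_ne_zero.mpr hg0)
    (by rw [add_neg_cancel_right]; exact hf0)
  rw [add_neg_cancel_right, ord_neg'] at h2
  rw [min_eq_left h'.le] at h1
  rcases le_total (v.ord (f + g)) (v.ord g) with h3 | h3
  · rw [min_eq_left h3] at h2
    omega
  · rw [min_eq_right h3] at h2
    omega

/-! ### constants -/

section Const

variable {K : Type*} [Field K] (A : ValuationSubring K)

/-- `x` is in the maximal ideal. -/
def InMax (x : K) : Prop := x ∈ A ∧ x⁻¹ ∉ A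

variable {A}

theorem InMax.mul_right {x y : K} (hx : InMax A x) (hy : y ∈ A) (hxy : x * y ≠ 0) :
    InMax A (x * y) := by
  refine ⟨mul_mem hx.1 hy, fun h => hx.2 ?_⟩
  have hx0 : x ≠ 0 := left_ne_zero_of_mul hxy
  have hy0 : y ≠ 0 := right_ne_zero_of_mul hxy
  have e : x⁻¹ = (x * y)⁻¹ * y := by
    field_simp
  rw [e]
  exact mul_mem h hy

theorem InMax.pow {x : K} (hx : InMax A x) {n : ℕ} (hn : n ≠ 0) : InMax A (x ^ n) := by
  refine ⟨pow_mem hx.1 n, fun h => hx.2 ?_⟩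
  obtain ⟨m, rfl⟩ := Nat.exists_eq_succ_of_ne_zero hn
  by_cases hx0 : x = 0
  · rw [hx0, inv_zero]; exact zero_mem _
  have e : x⁻¹ = (x ^ (m + 1))⁻¹ * x ^ m := by
    rw [pow_succ]
    field_simp
  rw [e]
  exact mul_mem h (pow_mem hx.1 m)

theorem InMax.of_pow {x : K} {n : ℕ} (hx : InMax A (x ^ n)) : InMax A x := by
  have hxi : x⁻¹ ∉ A := fun h => hx.2 (by rw [← inv_pow]; exact pow_mem h n)
  exact ⟨(A.mem_or_inv_mem x).resolve_right hxi, hxi⟩

end Const


/-! ### one-sided computations -/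

section OneSide

variable {K F k : Type*} [Field K] [Field F] [Algebra K F] [Field k]
  {Fk X : Type*} [Field Fk] [Algebra k Fk] {S : NSide K F k Fk X}

/-- adding an element of `m Ov` does not change the reduction. -/
theorem red_add_const_mul {Y W : F} {c : K} (hY : Y ∈ S.Ov) (hW : W ∈ S.Ov) (hc : c ∈ S.A)
    (hci : c⁻¹ ∉ S.A) :
    Y + algebraMap K F c * W ∈ S.Ov ∧ S.red (Y + algebraMap K F c * W) = S.red Y := by
  have hcO : algebraMap K F c ∈ S.Ov := (const_mem_iff c).mpr hc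
  refine ⟨add_mem hY (mul_mem hcO hW), ?_⟩
  rw [red_add hY (mul_mem hcO hW), red_mul hcO hW, kl_red_const_eq_zero hc hci, zero_mul,
    add_zero]

/-- case (B): the reduction of `Z = Ξ ^ p + κ Ξ + (κ a) W` has a pole of order `p`. -/
theorem ord_red_Z (Q : Place k Fk) {Ξ W : F} {κ a : K} {p : ℕ} (hp2 : 2 ≤ p)
    (hΞ : Ξ ∈ S.Ov) (hW : W ∈ S.Ov) (hκ : κ ∈ S.A) (haA : a ∈ S.A) (hai : a⁻¹ ∉ S.A)
    (hord : Q.ord (S.red Ξ) = -1) :
    Ξ ^ p + algebraMap K F κ * Ξ + algebraMap K F (κ * a) * W ∈ S.Ov ∧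
      Q.ord (S.red (Ξ ^ p + algebraMap K F κ * Ξ + algebraMap K F (κ * a) * W)) = -(p : ℤ) := by
  have hκO : algebraMap K F κ ∈ S.Ov := (const_mem_iff κ).mpr hκ
  have haO : algebraMap K F a ∈ S.Ov := (const_mem_iff a).mpr haA
  have h1 : Ξ ^ p + algebraMap K F κ * Ξ ∈ S.Ov := add_mem (pow_mem hΞ p) (mul_mem hκO hΞ)
  have e : algebraMap K F (κ * a) * W = algebraMap K F a * (algebraMap K F κ * W) := by
    rw [map_mul]; ring
  rw [e]
  obtain ⟨h2, h3⟩ := red_add_const_mul (S := S) h1 (mul_mem hκO hW) haA hai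
  refine ⟨h2, ?_⟩
  rw [h3, red_add (pow_mem hΞ p) (mul_mem hκO hΞ), red_pow hΞ, red_mul hκO hΞ]
  have hΞ0 : S.red Ξ ≠ 0 := by
    intro h0
    rw [h0, Place.ord_zero] at hord
    omega
  have hpow : Q.ord (S.red Ξ ^ p) = -(p : ℤ) := by
    rw [kl_ord_pow, hord]; ring
  rw [ord_add_eq_of_ord_lt Q (pow_ne_zero p hΞ0), hpow]
  intro hg0
  rw [hpow]
  rcases kl_ord_red_const_mul (S := S) Q hκ (S.red Ξ) with h | h
  · exact absurd h hg0
  · rw [h, hord]
    have : (2 : ℤ) ≤ (p : ℤ) := by exact_mod_cast hp2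
    omega

/-- case (B): the reduction of `(u V - 1) / a ^ p`. -/
theorem red_quot_B {u V Z : F} {d q : K} (hd0 : d ≠ 0) (hq0 : q ≠ 0)
    (hlev : (u - 1) / algebraMap K F d ∈ S.Ov) (hV : V = 1 + algebraMap K F q * Z)
    (hZ : Z ∈ S.Ov) (hqA : q ∈ S.A) (he : d / q ∈ S.A) (hei : (d / q)⁻¹ ∉ S.A) :
    (u * V - 1) / algebraMap K F q ∈ S.Ov ∧
      S.red ((u * V - 1) / algebraMap K F q) = S.red Z := by
  have hdF : algebraMap K F d ≠ 0 := by simpa using hd0
  have hqF : algebraMap K F q ≠ 0 := by simpa using hq0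
  have hVO : V ∈ S.Ov := by
    rw [hV]
    exact add_mem (one_mem _) (mul_mem ((const_mem_iff q).mpr hqA) hZ)
  have e : (u * V - 1) / algebraMap K F q =
      Z + algebraMap K F (d / q) * ((u - 1) / algebraMap K F d * V) := by
    rw [hV, map_div₀]
    field_simp
    ring
  rw [e]
  exact red_add_const_mul (S := S) hZ (mul_mem hlev hVO) he hei

/-- if `x / δ` is in the maximal ideal of `Ov` and `x / c` is a unit, then `c / δ` is in the
maximal ideal of `A`. -/
theorem inMax_div_of_red_eq_zero {x : F} {c δ : K} (hc0 : c ≠ 0) (hδ0 : δ ≠ 0)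
    (h1 : x / algebraMap K F δ ∈ S.Ov) (h2 : S.red (x / algebraMap K F δ) = 0)
    (h3 : x / algebraMap K F c ∈ S.Ov) (h4 : S.red (x / algebraMap K F c) ≠ 0) :
    InMax S.A (c / δ) := by
  have hδF : algebraMap K F δ ≠ 0 := by simpa using hδ0
  have hcF : algebraMap K F c ≠ 0 := by simpa using hc0
  have hcδ0 : c / δ ≠ 0 := div_ne_zero hc0 hδ0
  have hU : S.IsU (x / algebraMap K F c) := isU_of_red_ne_zero h3 h4
  have hx0 : x ≠ 0 := by
    intro h0
    apply hU.ne_zero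
    rw [h0, zero_div]
  have e : algebraMap K F (c / δ) =
      x / algebraMap K F δ * (x / algebraMap K F c)⁻¹ := by
    rw [map_div₀]
    field_simp
  have hm : algebraMap K F (c / δ) ∈ S.Ov := by
    rw [e]; exact mul_mem h1 hU.inv_mem
  have hr : S.red (algebraMap K F (c / δ)) = 0 := by
    rw [e, red_mul h1 hU.inv_mem, h2, zero_mul]
  have hA : c / δ ∈ S.A := (const_mem_iff _).mp hm
  exact ⟨hA, fun hi => kl_red_const_ne_zero (S := S) hcδ0 hA hi hr⟩

end OneSide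


/-! ### the local data of a Jacobi-form divisor -/

section Main

variable {K F k Fk₁ Fk₂ : Type*} [Field K] [Field F] [Algebra K F]
  [Field k] [Field Fk₁] [Algebra k Fk₁] [Field Fk₂] [Algebra k Fk₂] {ι : Type*}
  {N : NodalSetup K F k Fk₁ Fk₂ ι} {g : ℕ}

/-- **local data** (first half of `NK.kl_main₂`, for any exponent `m ≠ 0`): if
`div u₀ = m ∑ (P i - R i)` and some `P i ≠ R i`, there are `a` in the maximal ideal of `A` and
`Ξ` integral for both valuations, whose reductions have at most simple poles at the `Rb j` and a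
simple pole at one `Rb istar`, such that `u₀ (1 + a Ξ) ^ m` has neither zero nor pole on the discs
of the `Rb j`, `j ∈ I`; `u₀` has neither zero nor pole outside these discs. -/
theorem exists_local_data (NS : NodalNS N g) (m : ℕ) (hm : m ≠ 0)
    (P : Fin g → Place K F) (hP : ∀ i, N.r (P i) = some (NS.Rb i))
    (u₀ : F) (hu₀ : u₀ ≠ 0)
    (hdiv : ∀ v : Place K F, v.ord u₀ =
      m * ∑ i, (Finsupp.single (P i) (1 : ℤ) v - Finsupp.single (NS.R i) (1 : ℤ) v))
    (hcon : ¬ ∀ i, P i = NS.R i) :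
    ∃ (I : Finset (Fin g)) (istar : Fin g) (a : K) (Ξ : F),
      istar ∈ I ∧ a ≠ 0 ∧ a ∈ N.S₁.A ∧ a⁻¹ ∉ N.S₁.A ∧ Ξ ∈ N.S₁.Ov ∧ Ξ ∈ N.S₂.Ov ∧
      (∀ j ∈ I, -1 ≤ ordRed N (NS.Rb j) Ξ) ∧ ordRed N (NS.Rb istar) Ξ = -1 ∧
      (∀ v, (∀ j ∈ I, N.r v ≠ some (NS.Rb j)) → v.ord u₀ = 0) ∧
      (∀ j ∈ I, ∀ v, N.r v = some (NS.Rb j) →
        v.ord (u₀ * (1 + algebraMap K F a * Ξ) ^ m) = 0) ∧
      u₀ ≠ 1 := by
  classical
  obtain ⟨i₀, hi₀⟩ := not_forall.mp hcon
  set I : Finset (Fin g) := Finset.univ.filter fun i => P i ≠ NS.R i with hI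
  have hmemI : ∀ i, i ∈ I ↔ P i ≠ NS.R i := fun i => by simp [hI]
  have hIne : I.Nonempty := ⟨i₀, (hmemI i₀).mpr hi₀⟩
  -- the divisor of u₀
  have hterm : ∀ (v : Place K F) (i : Fin g), (i ∉ I ∨ N.r v ≠ some (NS.Rb i)) →
      Finsupp.single (P i) (1 : ℤ) v - Finsupp.single (NS.R i) (1 : ℤ) v = 0 := by
    intro v i h
    rcases h with h | h
    · have : P i = NS.R i := by
        by_contra h'
        exact h ((hmemI i).mpr h')
      rw [this, sub_self]
    · have h1 : v ≠ P i := fun e => h (by rw [e]; exact hP i)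
      have h2 : v ≠ NS.R i := fun e => h (by rw [e]; exact NS.r_R i)
      rw [Finsupp.single_eq_of_ne h1, Finsupp.single_eq_of_ne h2, sub_self]
  have hH1 : ∀ v, (∀ j ∈ I, N.r v ≠ some (NS.Rb j)) → v.ord u₀ = 0 := by
    intro v hv
    rw [hdiv, Finset.sum_eq_zero, mul_zero]
    intro i _
    apply hterm
    by_cases hi : i ∈ I
    · exact Or.inr (hv i hi)
    · exact Or.inl hi
  have hH2 : ∀ j ∈ I, ∀ v, N.r v = some (NS.Rb j) → v.ord u₀ =
      m * (Finsupp.single (P j) (1 : ℤ) v - Finsupp.single (NS.R j) (1 : ℤ) v) := by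
    intro j _ v hv
    rw [hdiv, Finset.sum_eq_single j]
    · intro i _ hij
      apply hterm
      right
      rw [hv]
      exact fun e => hij (NS.Rb_inj (Option.some.inj e)).symm
    · intro h
      exact absurd (Finset.mem_univ j) h
  have hmZ : (m : ℤ) ≠ 0 := by exact_mod_cast hm
  have hu1 : u₀ ≠ 1 := by
    intro h1
    have := hH2 i₀ ((hmemI i₀).mpr hi₀) (P i₀) (hP i₀)
    rw [h1, Place.ord_one, Finsupp.single_eq_same, Finsupp.single_eq_of_ne hi₀,
      sub_zero, mul_one] at this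
    exact hmZ this.symm
  -- local data
  have hloc : ∀ i, ∃ a : K, i ∈ I → (a ≠ 0 ∧ a ∈ N.S₁.A ∧ a⁻¹ ∉ N.S₁.A ∧
      (∀ v, N.r v = some (NS.Rb i) → v.ord (NS.t i) = Finsupp.single (NS.R i) (1 : ℤ) v) ∧
      (∀ v, N.r v = some (NS.Rb i) →
        v.ord (NS.t i - algebraMap K F a) = Finsupp.single (P i) (1 : ℤ) v)) := by
    intro i
    by_cases hi : i ∈ I
    · obtain ⟨a, ha⟩ := kl_exists_self₂ NS i (P i) (hP i) ((hmemI i).mp hi)
      exact ⟨a, fun _ => ha⟩
    · exact ⟨0, fun h => absurd h hi⟩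
  choose aI hL using hloc
  -- choose `istar` with maximal valuation
  obtain ⟨istar, hstar, hmax⟩ :=
    Finset.exists_max_image I (fun i => N.S₁.A.valuation (aI i)) hIne
  have ha0 : aI istar ≠ 0 := (hL istar hstar).1
  have haA : aI istar ∈ N.S₁.A := (hL istar hstar).2.1
  have hai : (aI istar)⁻¹ ∉ N.S₁.A := (hL istar hstar).2.2.1
  have haA₂ : aI istar ∈ N.S₂.A := (mem_A₂_iff N _).mpr haA
  have hai₂ : (aI istar)⁻¹ ∉ N.S₂.A := fun h => hai ((mem_A₂_iff N _).mp h)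
  have h1A : (((1 : ℕ) : K))⁻¹ ∈ N.S₁.A := by
    rw [Nat.cast_one, inv_one]; exact one_mem _
  have h1A₂ : (((1 : ℕ) : K))⁻¹ ∈ N.S₂.A := (mem_A₂_iff N _).mpr h1A
  have h10 : ((1 : ℕ) : K) ≠ 0 := by rw [Nat.cast_one]; exact one_ne_zero
  have haF0 : algebraMap K F (aI istar) ≠ 0 := by simpa using ha0
  have hcA : ∀ i ∈ I, aI i / aI istar ∈ N.S₁.A := by
    intro i hi
    rw [← ValuationSubring.valuation_le_one_iff, map_div₀]
    have hpos : 0 < N.S₁.A.valuation (aI istar) :=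
      zero_lt_iff.mpr ((Valuation.ne_zero_iff _).mpr ha0)
    exact (div_le_one₀ hpos).mpr (hmax i hi)
  have hcA₂ : ∀ i ∈ I, aI i / aI istar ∈ N.S₂.A := fun i hi => (mem_A₂_iff N _).mpr (hcA i hi)
  -- units
  have hsU := fun i (hi : i ∈ I) => kl_s_isU₂ NS i (hL i hi).2.1 (hL i hi).2.2.1
  have hsU₁ : ∀ i ∈ I, (side₁ N).IsU (NS.t i - algebraMap K F (aI i)) := fun i hi =>
    (hsU i hi).1.u₁
  have hsU₂ : ∀ i ∈ I, (side₂ N).IsU (NS.t i - algebraMap K F (aI i)) := fun i hi =>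
    (hsU i hi).1.u₂
  have hs0 : ∀ i ∈ I, NS.t i - algebraMap K F (aI i) ≠ 0 := fun i hi => (hsU₁ i hi).ne_zero
  -- expansions over `R = O₁ ⊓ O₂`
  set R : Subring F := N.S₁.Ov.toSubring ⊓ N.S₂.Ov.toSubring with hR
  have hmemR : ∀ x : F, x ∈ R ↔ x ∈ N.S₁.Ov ∧ x ∈ N.S₂.Ov := fun x => by
    rw [hR, Subring.mem_inf]; rfl
  have haR : algebraMap K F (aI istar) ∈ R :=
    (hmemR _).mpr ⟨(N.S₁.mem_Ov_iff _).mpr haA, (N.S₂.mem_Ov_iff _).mpr haA₂⟩
  have hσR : ∀ i ∈ I,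
      algebraMap K F (aI i / aI istar) * (NS.t i - algebraMap K F (aI i))⁻¹ ∈ R := fun i hi =>
    (hmemR _).mpr ⟨klσ_mem (S := side₁ N) hsU₁ hcA i hi, klσ_mem (S := side₂ N) hsU₂ hcA₂ i hi⟩
  have hq : ∀ i ∈ I, NS.t i * (NS.t i - algebraMap K F (aI i))⁻¹ =
      1 + algebraMap K F (aI istar) *
        (algebraMap K F (aI i / aI istar) * (NS.t i - algebraMap K F (aI i))⁻¹) := by
    intro i hi
    have := hs0 i hi
    rw [map_div₀]
    field_simp
    ring
  have hq0 : ∀ i ∈ I, NS.t i * (NS.t i - algebraMap K F (aI i))⁻¹ ≠ 0 := fun i hi =>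
    mul_ne_zero (kl_t_isU₂ NS i).u₁.ne_zero (inv_ne_zero (hs0 i hi))
  have hexp : KLExpR R (algebraMap K F (aI istar))
      (∏ i ∈ I, NS.t i * (NS.t i - algebraMap K F (aI i))⁻¹)
      (∑ i ∈ I,
        algebraMap K F (aI i / aI istar) * (NS.t i - algebraMap K F (aI i))⁻¹) := by
    apply KLExpR.prod I _ _ haR hσR
    intro i hi
    rw [hq i hi]
    exact KLExpR.base _ _ _
  obtain ⟨y, hy, hVy⟩ := hexp
  obtain ⟨hy₁, hy₂⟩ := (hmemR y).mp hy
  have hVY : ∏ i ∈ I, NS.t i * (NS.t i - algebraMap K F (aI i))⁻¹ =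
      1 + algebraMap K F (aI istar) * klY I NS.t aI (aI istar) 1 y := by
    rw [hVy]; unfold klY; rw [Nat.cast_one, one_mul]; ring
  have hYmem₁ : klY I NS.t aI (aI istar) 1 y ∈ N.S₁.Ov :=
    klY_mem (S := side₁ N) hsU₁ hcA haA hy₁
  have hYmem₂ : klY I NS.t aI (aI istar) 1 y ∈ N.S₂.Ov :=
    klY_mem (S := side₂ N) hsU₂ hcA₂ haA₂ hy₂
  -- pole orders of `Ξ`
  have hY2 : ∀ j ∈ I, -1 ≤ ordRed N (NS.Rb j) (klY I NS.t aI (aI istar) 1 y) := by
    intro j _
    have hord : ∀ i, pairOrd (NS.Rb j) (N.S₁.red (NS.t i)) (N.S₂.red (NS.t i)) ≤ 1 := by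
      intro i
      by_cases hij : i = j
      · subst hij; rw [NS.ord_t_self]
      · rw [NS.ord_t_other i j hij]; norm_num
    revert hord
    unfold ordRed
    generalize NS.Rb j = X
    intro hord
    cases X with
    | inl Q =>
      exact ord_red_klY_ge (S := side₁ N) Q hsU₁ (fun i hi => (hsU i hi).2.1) hcA haA hai hy₁
        (fun i _ => hord i)
    | inr Q =>
      exact ord_red_klY_ge (S := side₂ N) Q hsU₂ (fun i hi => (hsU i hi).2.2) hcA₂ haA₂ hai₂ hy₂
        (fun i _ => hord i)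
  have hY3 : ordRed N (NS.Rb istar) (klY I NS.t aI (aI istar) 1 y) = -1 := by
    have h1 := NS.ord_t_self istar
    have h0 : ∀ i, i ≠ istar →
        pairOrd (NS.Rb istar) (N.S₁.red (NS.t i)) (N.S₂.red (NS.t i)) ≤ 0 := fun i hi => by
      rw [NS.ord_t_other i istar hi]
    revert h1 h0
    unfold ordRed
    generalize NS.Rb istar = X
    intro h1 h0
    cases X with
    | inl Q =>
      exact ord_red_klY_eq (S := side₁ N) Q hsU₁ (fun i hi => (hsU i hi).2.1) hcA haA hai hy₁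
        h10 h1A hstar rfl ha0 h1 (fun i _ hi => h0 i hi)
    | inr Q =>
      exact ord_red_klY_eq (S := side₂ N) Q hsU₂ (fun i hi => (hsU i hi).2.2) hcA₂ haA₂ hai₂ hy₂
        h10 h1A₂ hstar rfl ha0 h1 (fun i _ hi => h0 i hi)
  -- orders of `u * V` on the discs
  have huV : ∀ j ∈ I, ∀ v, N.r v = some (NS.Rb j) →
      v.ord (u₀ * (1 + algebraMap K F (aI istar) * klY I NS.t aI (aI istar) 1 y) ^ m) = 0 := by
    intro j hj v hv
    rw [← hVY, v.ord_mul hu₀ (pow_ne_zero _ (Finset.prod_ne_zero_iff.mpr hq0)),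
      hH2 j hj v hv, kl_ord_pow, kl_ord_prod v I _ hq0, Finset.sum_eq_single_of_mem j hj]
    · rw [v.ord_mul (kl_t_isU₂ NS j).u₁.ne_zero (inv_ne_zero (hs0 j hj)), v.ord_inv,
        (hL j hj).2.2.2.1 v hv, (hL j hj).2.2.2.2 v hv]
      ring
    · intro i hi hij
      obtain ⟨h1, h2⟩ := kl_ord_other₂ NS i j hij (hL i hi).2.1 (hL i hi).2.2.1 v hv
      rw [v.ord_mul (kl_t_isU₂ NS i).u₁.ne_zero (inv_ne_zero (hs0 i hi)), v.ord_inv, h1, h2]
      norm_num
  exact ⟨I, istar, aI istar, klY I NS.t aI (aI istar) 1 y, hstar, ha0, haA, hai, hYmem₁, hYmem₂,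
    hY2, hY3, hH1, huV, hu1⟩


/-- **(HL) the high-level nodal key lemma for the exponent `p`** (residue characteristic `p`).
If `div u₀ = p ∑ (P i - R i)` with `P i` in the residue disc of `Rb i`, `u₀(P0) = 1`, and
`(u₀ - 1) / d` is integral for both valuations for some constant `d` with
`v(d) > p / (p - 1)`, then `P i = R i` for all `i`. -/
theorem kl_main_p (NS : NodalNS N g) (p : ℕ) (hp : p.Prime) (hp0 : (p : K) ≠ 0)
    (P : Fin g → Place K F) (hP : ∀ i, N.r (P i) = some (NS.Rb i))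
    (u₀ : F) (hu₀ : u₀ ≠ 0)
    (hdiv : ∀ v : Place K F, v.ord u₀ =
      p * ∑ i, (Finsupp.single (P i) (1 : ℤ) v - Finsupp.single (NS.R i) (1 : ℤ) v))
    (hP0 : u₀ = 1 ∨ 0 < NS.P0.ord (u₀ - 1))
    (d : K) (hd0 : d ≠ 0) (hd : InMax N.S₁.A (d ^ (p - 1) / (p : K) ^ p))
    (hlev₁ : (u₀ - 1) / algebraMap K F d ∈ N.S₁.Ov)
    (hlev₂ : (u₀ - 1) / algebraMap K F d ∈ N.S₂.Ov) :
    ∀ i, P i = NS.R i := by
  classical
  by_contra hcon
  obtain ⟨I, istar, a, Ξ, hstar, ha0, haA, hai, hΞ₁, hΞ₂, hΞ2, hΞ3, hoff, huV, hu1⟩ :=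
    exists_local_data NS p hp.ne_zero P hP u₀ hu₀ hdiv hcon
  have huP0 : 0 < NS.P0.ord (u₀ - 1) := hP0.resolve_left hu1
  have haA₂ : a ∈ N.S₂.A := (mem_A₂_iff N _).mpr haA
  have hai₂ : a⁻¹ ∉ N.S₂.A := fun h => hai ((mem_A₂_iff N _).mp h)
  have haO₁ : algebraMap K F a ∈ N.S₁.Ov := (N.S₁.mem_Ov_iff _).mpr haA
  have haO₂ : algebraMap K F a ∈ N.S₂.Ov := (N.S₂.mem_Ov_iff _).mpr haA₂
  set R : Subring F := N.S₁.Ov.toSubring ⊓ N.S₂.Ov.toSubring with hR
  have hmemR : ∀ x : F, x ∈ R ↔ x ∈ N.S₁.Ov ∧ x ∈ N.S₂.Ov := fun x => by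
    rw [hR, Subring.mem_inf]; rfl
  have hz : algebraMap K F a * Ξ ∈ R := (hmemR _).mpr ⟨mul_mem haO₁ hΞ₁, mul_mem haO₂ hΞ₂⟩
  obtain ⟨w, hw, hbin⟩ := exists_binom_prime R hp hz
  obtain ⟨hw₁, hw₂⟩ := (hmemR w).mp hw
  have hW₁ : Ξ ^ 2 * w ∈ N.S₁.Ov := mul_mem (pow_mem hΞ₁ 2) hw₁
  have hW₂ : Ξ ^ 2 * w ∈ N.S₂.Ov := mul_mem (pow_mem hΞ₂ 2) hw₂
  have hpF : (p : F) = algebraMap K F (p : K) := (map_natCast (algebraMap K F) p).symm
  have hpow : a ^ p = a ^ (p - 1) * a := by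
    rw [← pow_succ, Nat.sub_add_cancel hp.one_le]
  have hap : a ^ (p - 1) ≠ 0 := pow_ne_zero _ ha0
  have hapow0 : a ^ p ≠ 0 := pow_ne_zero _ ha0
  rcases Classical.em ((a ^ (p - 1) / (p : K))⁻¹ ∈ N.S₁.A) with hB | hA
  · -- case (B): `v(a) ≤ 1 / (p - 1)`
    set κ : K := (p : K) / a ^ (p - 1) with hκ
    have hκA : κ ∈ N.S₁.A := by rw [hκ, ← inv_div]; exact hB
    have hκA₂ : κ ∈ N.S₂.A := (mem_A₂_iff N _).mpr hκA
    have e1K : a ^ p * κ = (p : K) * a := by
      rw [hpow, hκ]; field_simp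
    have e1F : algebraMap K F a ^ p * algebraMap K F κ =
        algebraMap K F (p : K) * algebraMap K F a := by
      rw [← map_pow, ← map_mul, ← map_mul, e1K]
    have hVZ : (1 + algebraMap K F a * Ξ) ^ p = 1 + algebraMap K F (a ^ p) *
        (Ξ ^ p + algebraMap K F κ * Ξ + algebraMap K F (κ * a) * (Ξ ^ 2 * w)) := by
      rw [hbin, hpF, map_pow, map_mul]
      linear_combination (-(Ξ + algebraMap K F a * Ξ ^ 2 * w)) * e1F
    -- `d / a ^ p` is in the maximal ideal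
    have he : InMax N.S₁.A (d / a ^ p) := by
      have e : (d / a ^ p) ^ (p - 1) = d ^ (p - 1) / (p : K) ^ p * κ ^ p := by
        rw [hκ]
        field_simp
        ring
      have h1 : InMax N.S₁.A ((d / a ^ p) ^ (p - 1)) := by
        rw [e]
        refine hd.mul_right (pow_mem hκA p) ?_
        rw [← e]
        exact pow_ne_zero _ (div_ne_zero hd0 hapow0)
      exact h1.of_pow
    have he₂ : InMax N.S₂.A (d / a ^ p) :=
      ⟨(mem_A₂_iff N _).mpr he.1, fun h => he.2 ((mem_A₂_iff N _).mp h)⟩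
    have hnn : 0 ≤ ordRed N (NS.Rb istar)
        ((u₀ * (1 + algebraMap K F a * Ξ) ^ p - 1) / algebraMap K F (a ^ p)) := by
      refine ordRed_nonneg N _ (isSm_of_r N (NS.r_R istar)) fun v hv => ?_
      rw [kl_ord_div_const v hapow0]
      exact ord_nonneg_sub v (huV istar hstar v hv).ge (ord_one_nonneg v)
    have hneg : ordRed N (NS.Rb istar)
        ((u₀ * (1 + algebraMap K F a * Ξ) ^ p - 1) / algebraMap K F (a ^ p)) = -(p : ℤ) := by
      revert hΞ3
      unfold ordRed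
      generalize NS.Rb istar = X
      intro hΞ3
      cases X with
      | inl Q =>
        obtain ⟨hZ, hordZ⟩ := ord_red_Z (S := side₁ N) Q hp.two_le hΞ₁ hW₁ hκA haA hai hΞ3
        have := (red_quot_B (S := side₁ N) (u := u₀) hd0 hapow0 hlev₁ hVZ hZ (pow_mem haA p)
          he.1 he.2).2
        rw [side₁_red, side₁_red] at this
        rw [side₁_red] at hordZ
        show Q.ord (N.S₁.red _) = _
        rw [this, hordZ]
      | inr Q =>
        obtain ⟨hZ, hordZ⟩ := ord_red_Z (S := side₂ N) Q hp.two_le hΞ₂ hW₂ hκA₂ haA₂ hai₂ hΞ3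
        have := (red_quot_B (S := side₂ N) (u := u₀) hd0 hapow0 hlev₂ hVZ hZ (pow_mem haA₂ p)
          he₂.1 he₂.2).2
        rw [side₂_red, side₂_red] at this
        rw [side₂_red] at hordZ
        show Q.ord (N.S₂.red _) = _
        rw [this, hordZ]
    have := hp.pos
    omega
  · -- case (A): `v(a) > 1 / (p - 1)`
    set b : K := a ^ (p - 1) / (p : K) with hb
    have hbA : b ∈ N.S₁.A := (N.S₁.A.mem_or_inv_mem b).resolve_right hA
    have hbA₂ : b ∈ N.S₂.A := (mem_A₂_iff N _).mpr hbA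
    have hA₂ : b⁻¹ ∉ N.S₂.A := fun h => hA ((mem_A₂_iff N _).mp h)
    have e2K : (p : K) * a * b = a ^ p := by
      rw [hpow, hb]; field_simp
    have e2F : algebraMap K F (p : K) * algebraMap K F a * algebraMap K F b =
        algebraMap K F a ^ p := by
      rw [← map_pow, ← map_mul, ← map_mul, e2K]
    have hVY : (1 + algebraMap K F a * Ξ) ^ p = 1 + algebraMap K F ((p : K) * a) *
        (Ξ + algebraMap K F a * (Ξ ^ 2 * w) + algebraMap K F b * Ξ ^ p) := by
      rw [hbin, hpF, map_mul]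
      linear_combination (-(Ξ ^ p)) * e2F
    have ha'0 : (p : K) * a ≠ 0 := mul_ne_zero hp0 ha0
    have ha'A : (p : K) * a ∈ N.S₁.A := mul_mem (natCast_mem _ p) haA
    have ha'i : ((p : K) * a)⁻¹ ∉ N.S₁.A := by
      intro h
      apply hai
      have e : a⁻¹ = ((p : K) * a)⁻¹ * (p : K) := by
        field_simp
      rw [e]
      exact mul_mem h (natCast_mem _ p)
    obtain ⟨h1₁, h2₁⟩ := red_add_const_mul (S := side₁ N) hΞ₁ hW₁ haA hai
    obtain ⟨hY₁, hrY₁⟩ := red_add_const_mul (S := side₁ N) h1₁ (pow_mem hΞ₁ p) hbA hA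
    obtain ⟨h1₂, h2₂⟩ := red_add_const_mul (S := side₂ N) hΞ₂ hW₂ haA₂ hai₂
    obtain ⟨hY₂, hrY₂⟩ := red_add_const_mul (S := side₂ N) h1₂ (pow_mem hΞ₂ p) hbA₂ hA₂
    rw [h2₁, side₁_red, side₁_red] at hrY₁
    rw [h2₂, side₂_red, side₂_red] at hrY₂
    have hordY : ∀ X, ordRed N X (Ξ + algebraMap K F a * (Ξ ^ 2 * w) +
        algebraMap K F b * Ξ ^ p) = ordRed N X Ξ := fun X => by
      unfold ordRed
      rw [hrY₁, hrY₂]
    refine kl_core₂ NS I istar hstar huP0 hoff ha'0 ha'A ha'i hY₁ hY₂ ?_ ?_ ?_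
    · intro j hj
      rw [hordY]
      exact hΞ2 j hj
    · rw [hordY]
      exact hΞ3
    · intro j hj v hv
      rw [← hVY]
      exact huV j hj v hv

/-- **(HL), second form**: the level hypothesis in the form "`(u₀ - 1) / δ` is in the maximal
ideals of both valuation rings", `δ` any constant with `v(δ) ≥ p / (p - 1)` (for instance
`δ = (ζ - 1) ^ p`, `ζ` a primitive `p`-th root of unity). -/
theorem kl_main_p_of_red_eq_zero (NS : NodalNS N g) (p : ℕ) (hp : p.Prime) (hp0 : (p : K) ≠ 0)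
    (P : Fin g → Place K F) (hP : ∀ i, N.r (P i) = some (NS.Rb i))
    (u₀ : F) (hu₀ : u₀ ≠ 0)
    (hdiv : ∀ v : Place K F, v.ord u₀ =
      p * ∑ i, (Finsupp.single (P i) (1 : ℤ) v - Finsupp.single (NS.R i) (1 : ℤ) v))
    (hP0 : u₀ = 1 ∨ 0 < NS.P0.ord (u₀ - 1))
    (δ : K) (hδ0 : δ ≠ 0) (hδ : δ ^ (p - 1) / (p : K) ^ p ∈ N.S₁.A)
    (hlev₁ : (u₀ - 1) / algebraMap K F δ ∈ N.S₁.Ov)
    (hred₁ : N.S₁.red ((u₀ - 1) / algebraMap K F δ) = 0)
    (hlev₂ : (u₀ - 1) / algebraMap K F δ ∈ N.S₂.Ov)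
    (hred₂ : N.S₂.red ((u₀ - 1) / algebraMap K F δ) = 0) :
    ∀ i, P i = NS.R i := by
  classical
  by_contra hcon
  obtain ⟨I, istar, a, Ξ, -, -, -, -, -, -, -, -, -, -, hu1⟩ :=
    exists_local_data NS p hp.ne_zero P hP u₀ hu₀ hdiv hcon
  have hx : u₀ - 1 ≠ 0 := sub_ne_zero.mpr hu1
  obtain ⟨c, hc0, hc₁, hc₂, hne⟩ := exists_scale₂ N hx
  have hδF : algebraMap K F δ ≠ 0 := by simpa using hδ0
  have hcF : algebraMap K F c ≠ 0 := by simpa using hc0
  have hcδ0 : c / δ ≠ 0 := div_ne_zero hc0 hδ0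
  have hin : InMax N.S₁.A (c / δ) := by
    rcases hne with h | h
    · exact inMax_div_of_red_eq_zero (S := side₁ N) hc0 hδ0 hlev₁ hred₁ hc₁ h
    · have := inMax_div_of_red_eq_zero (S := side₂ N) hc0 hδ0 hlev₂ hred₂ hc₂ h
      exact ⟨(mem_A₂_iff N _).mp this.1, fun hi => this.2 ((mem_A₂_iff N _).mpr hi)⟩
  have hp1 : p - 1 ≠ 0 := by have := hp.two_le; omega
  have hd : InMax N.S₁.A (c ^ (p - 1) / (p : K) ^ p) := by
    have e : c ^ (p - 1) / (p : K) ^ p = (c / δ) ^ (p - 1) * (δ ^ (p - 1) / (p : K) ^ p) := by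
      have h1 : δ ^ (p - 1) ≠ 0 := pow_ne_zero _ hδ0
      have h2 : (p : K) ^ p ≠ 0 := pow_ne_zero _ hp0
      rw [div_pow]
      field_simp
    rw [e]
    refine (hin.pow hp1).mul_right hδ ?_
    rw [← e]
    exact div_ne_zero (pow_ne_zero _ hc0) (pow_ne_zero _ hp0)
  exact hcon (kl_main_p NS p hp hp0 P hP u₀ hu₀ hdiv hP0 c hc0 hd hc₁ hc₂)

end Main

end NKP

namespace PTor

variable {K F k Fk₁ Fk₂ : Type*} [Field K] [Field F] [Algebra K F]
  [Field k] [Field Fk₁] [Algebra k Fk₁] [Field Fk₂] [Algebra k Fk₂] {ι : Type*}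

/-- **(HL)**: `HighLevelStatement` of `Nodal/P/Defs.lean`. -/
theorem highLevel (N : NodalSetup K F k Fk₁ Fk₂ ι) (g : ℕ) (NS : NodalNS N g) (p : ℕ) (lam : K)
    (h : IsCycloUnif N p lam) : HighLevelStatement N g NS p lam := by
  intro P hP u₀ hu₀ hdiv hP0 hlev
  refine NKP.kl_main_p_of_red_eq_zero NS p h.prime h.p_ne_zero P hP u₀ hu₀ hdiv (Or.inr hP0)
    (lam ^ p) (pow_ne_zero _ h.ne_zero) ?_ hlev.1.1 hlev.1.2 hlev.2.1 hlev.2.2
  have e : (lam ^ p) ^ (p - 1) / (p : K) ^ p = (lam ^ (p - 1) / (p : K)) ^ p := by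
    rw [div_pow, ← pow_mul, ← pow_mul, mul_comm]
  rw [e]
  exact pow_mem h.kappa_inv_mem p

/-- (HL) with the level hypothesis in the form "`(u₀ - 1) / d` is integral for both valuations,
`d ^ (p - 1) / p ^ p` in the maximal ideal of `A`" (no uniformiser `lam` needed). -/
theorem highLevel_of_const (N : NodalSetup K F k Fk₁ Fk₂ ι) (g : ℕ) (NS : NodalNS N g) (p : ℕ)
    (hp : p.Prime) (hp0 : (p : K) ≠ 0)
    (P : Fin g → Place K F) (hP : ∀ i, N.r (P i) = some (NS.Rb i))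
    (u₀ : F) (hu₀ : u₀ ≠ 0)
    (hdiv : ∀ v : Place K F, v.ord u₀ =
      p * ∑ i, (Finsupp.single (P i) (1 : ℤ) v - Finsupp.single (NS.R i) (1 : ℤ) v))
    (hP0 : 0 < NS.P0.ord (u₀ - 1))
    (d : K) (hd0 : d ≠ 0) (hdA : d ^ (p - 1) / (p : K) ^ p ∈ N.S₁.A)
    (hdi : (d ^ (p - 1) / (p : K) ^ p)⁻¹ ∉ N.S₁.A) (hlev : LevelGE N d u₀) :
    ∀ i, P i = NS.R i :=
  NKP.kl_main_p NS p hp hp0 P hP u₀ hu₀ hdiv (Or.inr hP0) d hd0 ⟨hdA, hdi⟩ hlev.1 hlev.2

end PTor

end Fermat.Agent.BadRed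
end
end MergeWrap_Lib_BadRed_Nodal_P_HighLevel

section MergeWrap_Lib_BadRed_Nodal_P_LevelAux -- from Lib/BadRed/Nodal/P/LevelAux.lean

set_option autoImplicit false

/-!
# S33-new, seat P-L (helper42): auxiliary lemmas for `Nodal/P/Level.lean`

Residue characteristic `p`.  Design: helper66's note "S33-new, elementary proof of COV", steps (L)
and (AS).

* Frobenius on the residue function fields: `ord (a ^ p) = p ord a`, values of `p`-th roots
  (`valAt_of_pow`), `isNodalFn_of_pow`, the order of `a ^ p + c a` at a pole of `a`;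
* one-sided valuation lemmas: `mem_of_pow_mem`, `red_eq_one_of_pow`, the LOW case
  `red (((1 + x) ^ p - 1) / c ^ p) = red (x / c) ^ p` (`v(c) < v(lam)`) and the CRITICAL case
  `red (((1 + lam B) ^ p - 1) / lam ^ p) = red B ^ p + κ̄ red B`;
* `core` : a function of `O₁ ∩ O₂`, regular off the discs of the `Rb j`, with poles of order `≤ p`
  at the `Rb j`, vanishing at `P0`, whose reductions are `a_i ^ p + c₀ a_i` for a nodal pair
  `(a₁, a₂)`, has reductions `0`.
-/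

noncomputable section

open AlgebraicCurve Fermat.Agent.RR Fermat.Agent.Deuring

namespace Fermat.Agent.BadRed

namespace PLv

open NK NKP
open Fermat.Agent.S18Key (ord_neg' ord_nonneg_add ord_nonneg_sub ord_nonneg_mul ord_const_nonneg
  ord_one_nonneg ord_add_ge_of_ge ord_add_eq_of_lt mapDomain_apply_eq_sum sum_le_mapDomain
  mapDomain_nonneg le_mapDomain add_le_mapDomain kl_ord_const_mul kl_ord_mul_const
  kl_ord_div_const kl_ord_sum_ge kl_ord_prod kl_ord_pow kl_ord_sub_ge_of_ge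
  kl_ne_zero_of_ord_ne_zero kl_const_eq_zero_of_ord_pos)

/-! ### Frobenius on a function field of characteristic `p` -/

section Frob

variable {k Fk : Type*} [Field k] [Field Fk] [Algebra k Fk] {p : ℕ}

/-- the characteristic of an extension field. -/
theorem charP_of_algebra (hp : p.Prime) (hk : (p : k) = 0) : CharP Fk p := by
  refine (CharP.charP_iff_prime_eq_zero hp).mpr ?_
  have := congrArg (algebraMap k Fk) hk
  simpa using this

/-- `a ^ p = b ^ p → a = b` in characteristic `p`. -/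
theorem eq_of_pow_eq (hp : p.Prime) (hk : (p : k) = 0) {a b : Fk} (h : a ^ p = b ^ p) :
    a = b := by
  have : CharP Fk p := charP_of_algebra hp hk
  have : Fact p.Prime := ⟨hp⟩
  exact frobenius_inj Fk p h

/-- `(a - c) ^ p = a ^ p - c ^ p`. -/
theorem sub_pow_p (hp : p.Prime) (hk : (p : k) = 0) (a b : Fk) :
    (a - b) ^ p = a ^ p - b ^ p := by
  have : CharP Fk p := charP_of_algebra hp hk
  have : Fact p.Prime := ⟨hp⟩
  exact sub_pow_char a b

/-- values of `p`-th roots. -/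
theorem valAt_of_pow (hp : p.Prime) (hk : (p : k) = 0) (Q : Place k Fk) {a : Fk} {c : k}
    (h : ValAt Q (a ^ p) (c ^ p)) : ValAt Q a c := by
  have e : a ^ p - algebraMap k Fk (c ^ p) = (a - algebraMap k Fk c) ^ p := by
    rw [sub_pow_p hp hk, map_pow]
  rcases h with h | h
  · left
    have h0 : (a - algebraMap k Fk c) ^ p = 0 := by rw [← e, h, sub_self]
    exact sub_eq_zero.mp (pow_eq_zero_iff hp.ne_zero |>.mp h0)
  · right
    rw [e, kl_ord_pow] at h
    have hp0 : (0 : ℤ) < p := by exact_mod_cast hp.pos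
    exact pos_of_mul_pos_right h hp0.le

/-- `0 ≤ ord (a ^ p) → 0 ≤ ord a`. -/
theorem ord_nonneg_of_pow (hp : p.Prime) (Q : Place k Fk) {a : Fk} (h : 0 ≤ Q.ord (a ^ p)) :
    0 ≤ Q.ord a := by
  rw [kl_ord_pow] at h
  have hp0 : (0 : ℤ) < p := by exact_mod_cast hp.pos
  exact nonneg_of_mul_nonneg_right h hp0

/-- the order of `a ^ p + c a` at a pole of `a`. -/
theorem ord_wp_of_neg (hp : p.Prime) (Q : Place k Fk) {a : Fk} (c : k) (h : Q.ord a < 0) :
    Q.ord (a ^ p + algebraMap k Fk c * a) = p * Q.ord a := by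
  have ha0 : a ≠ 0 := by rintro rfl; simp at h
  have h2 : (2 : ℤ) ≤ p := by exact_mod_cast hp.two_le
  rw [ord_add_eq_of_ord_lt Q (pow_ne_zero p ha0), kl_ord_pow]
  intro hg0
  rw [kl_ord_pow]
  have hc0 : c ≠ 0 := by
    rintro rfl
    apply hg0
    rw [map_zero, zero_mul]
  rw [kl_ord_const_mul Q hc0]
  nlinarith

/-- regularity of `a` from the regularity of `a ^ p + c a`. -/
theorem ord_nonneg_of_wp (hp : p.Prime) (Q : Place k Fk) {a : Fk} (c : k)
    (h : 0 ≤ Q.ord (a ^ p + algebraMap k Fk c * a)) : 0 ≤ Q.ord a := by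
  by_contra hneg
  push Not at hneg
  rw [ord_wp_of_neg hp Q c hneg] at h
  have hp0 : (0 : ℤ) < p := by exact_mod_cast hp.pos
  nlinarith

/-- a pole of order `≤ p` of `a ^ p + c a` is a pole of order `≤ 1` of `a`. -/
theorem ord_ge_neg_one_of_wp (hp : p.Prime) (Q : Place k Fk) {a : Fk} (c : k)
    (h : -(p : ℤ) ≤ Q.ord (a ^ p + algebraMap k Fk c * a)) : -1 ≤ Q.ord a := by
  by_contra hneg
  push Not at hneg
  rw [ord_wp_of_neg hp Q c (by omega)] at h
  have hp0 : (0 : ℤ) < p := by exact_mod_cast hp.pos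
  nlinarith

end Frob

/-! ### one-sided valuation lemmas -/

section OneSide

variable {K F k : Type*} [Field K] [Field F] [Algebra K F] [Field k]
  {Fk X : Type*} [Field Fk] [Algebra k Fk] {S : NSide K F k Fk X} {p : ℕ}

/-- valuation rings are integrally closed (special case). -/
theorem mem_of_pow_mem {x : F} {n : ℕ} (hn : n ≠ 0) (h : x ^ n ∈ S.Ov) : x ∈ S.Ov := by
  by_contra hx
  have hi : x⁻¹ ∈ S.Ov := (mem_or_inv_mem (S := S) x).resolve_left hx
  obtain ⟨m, rfl⟩ := Nat.exists_eq_succ_of_ne_zero hn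
  have hx0 : x ≠ 0 := fun h0 => hx (h0 ▸ zero_mem _)
  have e : x = x ^ (m + 1) * (x⁻¹) ^ m := by
    rw [pow_succ, inv_pow]
    field_simp
  apply hx
  rw [e]
  exact mul_mem h (pow_mem hi m)

/-- the residue of a constant of `A`, as a constant of `Fk`. -/
theorem red_const_eq {c : K} (hc : c ∈ S.A) :
    S.red (algebraMap K F c) = algebraMap k Fk (S.res ⟨c, hc⟩) := red_const hc

/-- `p` vanishes in the residue field as soon as `p` is in the maximal ideal. -/
theorem cast_p_eq_zero (hpm : InMax S.A (p : K)) : (p : k) = 0 := by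
  have h := (res_eq_zero_iff (S := S) hpm.1).mpr (Or.inr hpm.2)
  have e : S.res ⟨(p : K), hpm.1⟩ = (p : k) := by
    have : (⟨(p : K), hpm.1⟩ : S.A) = ((p : ℕ) : S.A) := by
      apply Subtype.ext
      simp
    rw [this, map_natCast]
  rw [← e, h]

/-- a `p`-th root of a `1`-unit is a `1`-unit. -/
theorem red_eq_one_of_pow (hp : p.Prime) (hk : (p : k) = 0) {x : F} (h : x ^ p ∈ S.Ov)
    (h1 : S.red (x ^ p) = 1) : x ∈ S.Ov ∧ S.red x = 1 := by
  have hx : x ∈ S.Ov := mem_of_pow_mem hp.ne_zero h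
  refine ⟨hx, ?_⟩
  rw [red_pow hx] at h1
  exact eq_of_pow_eq (k := k) hp hk (by rw [h1, one_pow])

/-- **LOW case**: for `v(c) < v(lam)` and `x / c` integral,
`((1 + x) ^ p - 1) / c ^ p ≡ (x / c) ^ p`. -/
theorem red_low (hp : p.Prime) (hp0 : (p : K) ≠ 0) {lam c : K}
    (hκ : (p : K) / lam ^ (p - 1) ∈ S.A) (hc0 : c ≠ 0) (hlc : InMax S.A (lam / c))
    {x : F} (hx : x ∈ S.Ov) (hxc : x / algebraMap K F c ∈ S.Ov) :
    ((1 + x) ^ p - 1) / algebraMap K F (c ^ p) ∈ S.Ov ∧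
      S.red (((1 + x) ^ p - 1) / algebraMap K F (c ^ p)) = S.red (x / algebraMap K F c) ^ p := by
  obtain ⟨w, hw, hbin⟩ := exists_binom_prime S.Ov.toSubring hp (z := x) hx
  have hw' : w ∈ S.Ov := hw
  have hp1 : p - 1 ≠ 0 := by have := hp.two_le; omega
  have hl0 : lam ≠ 0 := by
    rintro rfl
    apply hlc.2
    rw [zero_div, inv_zero]
    exact zero_mem _
  have hcF : algebraMap K F c ≠ 0 := by simpa using hc0
  set q : K := (lam / c) ^ (p - 1) * ((p : K) / lam ^ (p - 1)) with hq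
  have hq0 : q ≠ 0 :=
    mul_ne_zero (pow_ne_zero _ (div_ne_zero hl0 hc0)) (div_ne_zero hp0 (pow_ne_zero _ hl0))
  have hqm : InMax S.A q := (hlc.pow hp1).mul_right hκ hq0
  have hqe : q = (p : K) / c ^ (p - 1) := by
    rw [hq, div_pow]
    have := pow_ne_zero (p - 1) hl0
    have := pow_ne_zero (p - 1) hc0
    field_simp
  have hpe : c ^ p = c ^ (p - 1) * c := by
    rw [← pow_succ]
    congr 1
    have := hp.two_le
    omega
  have hW : x / algebraMap K F c * (1 + x * w) ∈ S.Ov :=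
    mul_mem hxc (add_mem (one_mem _) (mul_mem hx hw'))
  have e : ((1 + x) ^ p - 1) / algebraMap K F (c ^ p) =
      (x / algebraMap K F c) ^ p + algebraMap K F q * (x / algebraMap K F c * (1 + x * w)) := by
    rw [hbin, hqe, map_div₀, map_natCast, div_pow]
    have h1 : algebraMap K F (c ^ (p - 1)) ≠ 0 := by simpa using pow_ne_zero (p - 1) hc0
    have h2 : algebraMap K F c ^ p = algebraMap K F (c ^ (p - 1)) * algebraMap K F c := by
      rw [← map_pow, hpe, map_mul]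
    have h3 : algebraMap K F (c ^ p) = algebraMap K F (c ^ (p - 1)) * algebraMap K F c := by
      rw [hpe, map_mul]
    rw [h3, h2]
    field_simp
    ring
  rw [e]
  obtain ⟨h1, h2⟩ := red_add_const_mul (S := S) (pow_mem hxc p) hW hqm.1 hqm.2
  exact ⟨h1, by rw [h2, red_pow hxc]⟩

/-- **CRITICAL case**: `((1 + lam B) ^ p - 1) / lam ^ p ≡ B ^ p + κ B`, `κ = p / lam ^ (p - 1)`. -/
theorem red_crit (hp : p.Prime) {lam : K} (hlm : InMax S.A lam)
    (hκ : (p : K) / lam ^ (p - 1) ∈ S.A) {B : F} (hB : B ∈ S.Ov) :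
    ((1 + algebraMap K F lam * B) ^ p - 1) / algebraMap K F (lam ^ p) ∈ S.Ov ∧
      S.red (((1 + algebraMap K F lam * B) ^ p - 1) / algebraMap K F (lam ^ p)) =
        S.red B ^ p + S.red (algebraMap K F ((p : K) / lam ^ (p - 1))) * S.red B := by
  have hlO : algebraMap K F lam ∈ S.Ov := (const_mem_iff lam).mpr hlm.1
  have hκO : algebraMap K F ((p : K) / lam ^ (p - 1)) ∈ S.Ov := (const_mem_iff _).mpr hκ
  obtain ⟨w, hw, hbin⟩ := exists_binom_prime S.Ov.toSubring hp (z := algebraMap K F lam * B)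
    (mul_mem hlO hB)
  have hw' : w ∈ S.Ov := hw
  have hl0 : lam ≠ 0 := by
    rintro rfl
    apply hlm.2
    rw [inv_zero]
    exact zero_mem _
  have hlF : algebraMap K F lam ≠ 0 := by simpa using hl0
  have hpe : lam ^ p = lam ^ (p - 1) * lam := by
    rw [← pow_succ]
    congr 1
    have := hp.two_le
    omega
  have hY : B ^ p + algebraMap K F ((p : K) / lam ^ (p - 1)) * B ∈ S.Ov :=
    add_mem (pow_mem hB p) (mul_mem hκO hB)
  have hW : algebraMap K F ((p : K) / lam ^ (p - 1)) * (B ^ 2 * w) ∈ S.Ov :=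
    mul_mem hκO (mul_mem (pow_mem hB 2) hw')
  have e : ((1 + algebraMap K F lam * B) ^ p - 1) / algebraMap K F (lam ^ p) =
      (B ^ p + algebraMap K F ((p : K) / lam ^ (p - 1)) * B) +
        algebraMap K F lam * (algebraMap K F ((p : K) / lam ^ (p - 1)) * (B ^ 2 * w)) := by
    rw [hbin, map_div₀, map_natCast]
    have h1 : algebraMap K F (lam ^ (p - 1)) ≠ 0 := by simpa using pow_ne_zero (p - 1) hl0
    have h2 : algebraMap K F (lam ^ p) = algebraMap K F (lam ^ (p - 1)) * algebraMap K F lam := by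
      rw [hpe, map_mul]
    have h3 : (algebraMap K F lam * B) ^ p =
        algebraMap K F (lam ^ (p - 1)) * algebraMap K F lam * B ^ p := by
      rw [mul_pow, ← map_pow, hpe, map_mul]
    rw [h3, h2]
    field_simp
    ring
  rw [e]
  obtain ⟨h1, h2⟩ := red_add_const_mul (S := S) hY hW hlm.1 hlm.2
  exact ⟨h1, by rw [h2, red_add (pow_mem hB p) (mul_mem hκO hB), red_pow hB, red_mul hκO hB]⟩

/-- if `x` is in the maximal ideal and `x / c` is a unit of `Ov`, then `c` is in the maximal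
ideal of `A`. -/
theorem inMax_of_red_eq_zero {x : F} {c : K} (hc0 : c ≠ 0) (hx : x ∈ S.Ov) (hx0 : S.red x = 0)
    (h3 : x / algebraMap K F c ∈ S.Ov) (h4 : S.red (x / algebraMap K F c) ≠ 0) :
    InMax S.A c := by
  have h := inMax_div_of_red_eq_zero (S := S) (x := x) (c := c) (δ := 1) hc0 one_ne_zero
    (by rw [map_one, div_one]; exact hx) (by rw [map_one, div_one]; exact hx0) h3 h4
  rwa [div_one] at h

end OneSide

/-! ### one-sided: poles of the reduction, `p`-th roots of the leading coefficient -/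

section OneSide2

variable {K F k : Type*} [Field K] [Field F] [Algebra K F] [Field k]
  {Fk X : Type*} [Field Fk] [Algebra k Fk] {S : NSide K F k Fk X} {p : ℕ}

/-- if `f t ^ n` has no pole on the disc of `Q` and `red t` is a parameter at `Q`, then `red f`
has a pole of order at most `n` at `Q`. -/
theorem ord_red_ge_of_param {f t : F} (Q : Place k Fk) (hQ : S.sm Q) (hf : S.IsU f)
    (ht : S.IsU t) (n : ℕ) (hreg : ∀ P, S.r P = some (S.emb Q) → 0 ≤ P.ord (f * t ^ n))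
    (hordt : Q.ord (S.red t) = 1) : -(n : ℤ) ≤ Q.ord (S.red f) := by
  have h := push_nonneg (hf.mul (ht.pow n)) Q hQ hreg
  rw [red_mul hf.mem (ht.pow n).mem, red_pow ht.mem,
    Q.ord_mul hf.red_ne_zero (pow_ne_zero n ht.red_ne_zero), kl_ord_pow, hordt] at h
  omega

/-- `p` is in the maximal ideal of `A`. -/
theorem inMax_p (hp : p.Prime) (hp0 : (p : K) ≠ 0) {lam : K} (hlm : InMax S.A lam)
    (hκ : (p : K) / lam ^ (p - 1) ∈ S.A) : InMax S.A (p : K) := by
  have hl0 : lam ≠ 0 := by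
    rintro rfl
    apply hlm.2
    rw [inv_zero]
    exact zero_mem _
  have hp1 : p - 1 ≠ 0 := by have := hp.two_le; omega
  have e : (p : K) = lam ^ (p - 1) * ((p : K) / lam ^ (p - 1)) := by
    have := pow_ne_zero (p - 1) hl0
    field_simp
  have h := (hlm.pow hp1).mul_right hκ (by rw [← e]; exact hp0)
  rwa [← e] at h

/-- `p ^ 2 / lam ^ p` is integral. -/
theorem p_sq_div_mem (hp : p.Prime) {lam : K} (hlm : InMax S.A lam)
    (hκ : (p : K) / lam ^ (p - 1) ∈ S.A) : (p : K) ^ 2 / lam ^ p ∈ S.A := by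
  have hl0 : lam ≠ 0 := by
    rintro rfl
    apply hlm.2
    rw [inv_zero]
    exact zero_mem _
  have h2 := hp.two_le
  have e : (p : K) ^ 2 / lam ^ p = ((p : K) / lam ^ (p - 1)) ^ 2 * lam ^ (p - 2) := by
    have e1 : lam ^ p = lam ^ (p - 2) * lam ^ 2 := by
      rw [← pow_add]
      congr 1
      omega
    have e2 : lam ^ (p - 1) = lam ^ (p - 2) * lam := by
      rw [← pow_succ]
      congr 1
      omega
    rw [e1, e2]
    have := pow_ne_zero (p - 2) hl0
    field_simp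
  rw [e]
  exact mul_mem (pow_mem hκ 2) (pow_mem hlm.1 _)

/-- **the leading coefficient of a split `1`-unit below the critical level is a `p`-th power.**
`u` a unit with `red u = 1` which is a constant times a `p`-th power times a `1`-unit of level
`p ^ 2`; `(u - 1) / d` integral with `v(d) < v(lam ^ p)`.  Then `red ((u - 1) / d)` is a `p`-th
power. -/
theorem exists_root_red (hp : p.Prime) (hp0 : (p : K) ≠ 0) {lam : K} (hlm : InMax S.A lam)
    (hκ : (p : K) / lam ^ (p - 1) ∈ S.A) (hK : ∀ c : K, ∃ d : K, d ^ p = c)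
    {u : F} (hu : S.IsU u) (hru : S.red u = 1)
    (hsplit : ∃ (H : F) (c : K), H ≠ 0 ∧ c ≠ 0 ∧
      (u / (algebraMap K F c * H ^ p) - 1) / algebraMap K F ((p : K) ^ 2) ∈ S.Ov)
    {d : K} (hd0 : d ≠ 0) (hδd : InMax S.A (lam ^ p / d))
    (hd : (u - 1) / algebraMap K F d ∈ S.Ov) :
    ∃ a : Fk, S.red ((u - 1) / algebraMap K F d) = a ^ p := by
  have hpm : InMax S.A (p : K) := inMax_p hp hp0 hlm hκ
  have hk : (p : k) = 0 := cast_p_eq_zero (S := S) hpm
  have hl0 : lam ≠ 0 := by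
    rintro rfl
    apply hlm.2
    rw [inv_zero]
    exact zero_mem _
  have hdF : algebraMap K F d ≠ 0 := by simpa using hd0
  obtain ⟨H, c, hH0, hc0, he⟩ := hsplit
  set e : F := (u / (algebraMap K F c * H ^ p) - 1) / algebraMap K F ((p : K) ^ 2) with hedef
  obtain ⟨c₀, hc₀⟩ := hK c
  have hc₀0 : c₀ ≠ 0 := by
    rintro rfl
    rw [zero_pow hp.ne_zero] at hc₀
    exact hc0 hc₀.symm
  have hcF : algebraMap K F c ≠ 0 := by simpa using hc0
  have hp2F : algebraMap K F ((p : K) ^ 2) ≠ 0 := (map_ne_zero _).mpr (pow_ne_zero 2 hp0)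
  set H' : F := algebraMap K F c₀ * H with hH'
  have hH'p : H' ^ p = algebraMap K F c * H ^ p := by
    rw [hH', mul_pow, ← map_pow, hc₀]
  have hcH0 : algebraMap K F c * H ^ p ≠ 0 := mul_ne_zero hcF (pow_ne_zero _ hH0)
  -- `u = H' ^ p (1 + p² e)`
  have hu_eq : u = H' ^ p * (1 + algebraMap K F ((p : K) ^ 2) * e) := by
    rw [hH'p, hedef]
    field_simp
    ring
  have hp2m : InMax S.A ((p : K) ^ 2) := hpm.pow two_ne_zero
  obtain ⟨hv1, hv2⟩ := red_add_const_mul (S := S) (Y := 1) (one_mem _) he hp2m.1 hp2m.2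
  rw [red_one] at hv2
  have hvU : S.IsU (1 + algebraMap K F ((p : K) ^ 2) * e) :=
    isU_of_red_ne_zero hv1 (by rw [hv2]; exact one_ne_zero)
  have hHp : H' ^ p = u / (1 + algebraMap K F ((p : K) ^ 2) * e) := by
    rw [hu_eq, mul_div_assoc, div_self hvU.ne_zero, mul_one]
  have hHpU : S.IsU (H' ^ p) := by rw [hHp]; exact hu.div hvU
  have hHpr : S.red (H' ^ p) = 1 := by
    have h1 : S.red (H' ^ p) * S.red (1 + algebraMap K F ((p : K) ^ 2) * e) = S.red u := by
      rw [← red_mul hHpU.mem hvU.mem, ← hu_eq]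
    rw [hv2, mul_one, hru] at h1
    exact h1
  obtain ⟨hHm, hHr⟩ := red_eq_one_of_pow (S := S) hp hk hHpU.mem hHpr
  set x : F := H' - 1 with hx
  have hxm : x ∈ S.Ov := sub_mem hHm (one_mem _)
  have hH1 : H' = 1 + x := by rw [hx]; ring
  -- `Y = ((1 + x) ^ p - 1) / d` has the same reduction as `(u - 1) / d`
  have hq : InMax S.A ((p : K) ^ 2 / lam ^ p * (lam ^ p / d)) := by
    have h0 : lam ^ p / d * ((p : K) ^ 2 / lam ^ p) ≠ 0 :=
      mul_ne_zero (div_ne_zero (pow_ne_zero _ hl0) hd0)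
        (div_ne_zero (pow_ne_zero _ hp0) (pow_ne_zero _ hl0))
    have := hδd.mul_right (p_sq_div_mem (S := S) hp hlm hκ) h0
    rwa [mul_comm] at this
  have hqe : (p : K) ^ 2 / lam ^ p * (lam ^ p / d) = (p : K) ^ 2 / d := by
    have := pow_ne_zero p hl0
    field_simp
  rw [hqe] at hq
  have hqn : InMax S.A (-((p : K) ^ 2 / d)) :=
    ⟨neg_mem hq.1, by rw [inv_neg]; exact fun h => hq.2 (by simpa using neg_mem h)⟩
  have hYe : ((1 + x) ^ p - 1) / algebraMap K F d =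
      (u - 1) / algebraMap K F d + algebraMap K F (-((p : K) ^ 2 / d)) * (H' ^ p * e) := by
    rw [← hH1, map_neg, map_div₀]
    conv_rhs => rw [hu_eq]
    field_simp
    ring
  obtain ⟨hY, hYr⟩ := red_add_const_mul (S := S) hd (mul_mem hHpU.mem he) hqn.1 hqn.2
  rw [← hYe] at hY hYr
  rw [← hYr]
  -- the two cases
  by_cases hx0 : x = 0
  · refine ⟨0, ?_⟩
    rw [hx0, add_zero, one_pow, sub_self, zero_div, red_zero, zero_pow hp.ne_zero]
  obtain ⟨c₄, hc₄0, hU₄⟩ := exists_scale (S := S) hx0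
  have hc₄F : algebraMap K F c₄ ≠ 0 := by simpa using hc₄0
  have hlF : algebraMap K F lam ≠ 0 := by simpa using hl0
  by_cases hxl : x / algebraMap K F lam ∈ S.Ov
  · -- critical or higher: the reduction vanishes
    refine ⟨0, ?_⟩
    obtain ⟨hZ, -⟩ := red_crit (S := S) hp hlm hκ hxl
    have e1 : 1 + algebraMap K F lam * (x / algebraMap K F lam) = 1 + x := by
      field_simp
    rw [e1] at hZ
    have e2 : ((1 + x) ^ p - 1) / algebraMap K F d =
        0 + algebraMap K F (lam ^ p / d) * (((1 + x) ^ p - 1) / algebraMap K F (lam ^ p)) := by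
      rw [map_div₀, zero_add]
      have : algebraMap K F (lam ^ p) ≠ 0 := by simpa using pow_ne_zero p hl0
      field_simp
    rw [e2, zero_pow hp.ne_zero]
    have := (red_add_const_mul (S := S) (zero_mem _) hZ hδd.1 hδd.2).2
    rw [this, red_zero]
  · -- low case
    have hlc : InMax S.A (lam / c₄) := by
      have hn : c₄ / lam ∉ S.A := by
        intro hmem
        apply hxl
        have e3 : x / algebraMap K F lam = x / algebraMap K F c₄ * algebraMap K F (c₄ / lam) := by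
          rw [map_div₀]
          field_simp
        rw [e3]
        exact mul_mem hU₄.mem ((const_mem_iff _).mpr hmem)
      have h1 : lam / c₄ ∈ S.A := by
        rcases S.A.mem_or_inv_mem (c₄ / lam) with h | h
        · exact absurd h hn
        · rwa [inv_div] at h
      exact ⟨h1, by rwa [inv_div]⟩
    obtain ⟨hZ, hZr⟩ := red_low (S := S) hp hp0 hκ hc₄0 hlc hxm hU₄.mem
    have hZU : S.IsU (((1 + x) ^ p - 1) / algebraMap K F (c₄ ^ p)) :=
      isU_of_red_ne_zero hZ (by rw [hZr]; exact pow_ne_zero _ hU₄.red_ne_zero)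
    have hc₄pF : algebraMap K F (c₄ ^ p) ≠ 0 := by simpa using pow_ne_zero p hc₄0
    have e4 : algebraMap K F (c₄ ^ p / d) =
        ((1 + x) ^ p - 1) / algebraMap K F d *
          (((1 + x) ^ p - 1) / algebraMap K F (c₄ ^ p))⁻¹ := by
      have hn0 : (1 + x) ^ p - 1 ≠ 0 := by
        intro h0
        apply hZU.ne_zero
        rw [h0, zero_div]
      rw [map_div₀]
      field_simp
    have hc₅ : c₄ ^ p / d ∈ S.A := by
      rw [← const_mem_iff (S := S), e4]
      exact mul_mem hY hZU.inv_mem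
    obtain ⟨d₅, hd₅⟩ := hK (c₄ ^ p / d)
    have hd₅A : d₅ ∈ S.A := by
      rw [← const_mem_iff (S := S)]
      apply mem_of_pow_mem (S := S) hp.ne_zero
      rw [← map_pow, hd₅]
      exact (const_mem_iff _).mpr hc₅
    have hd₅O : algebraMap K F d₅ ∈ S.Ov := (const_mem_iff _).mpr hd₅A
    refine ⟨S.red (x / algebraMap K F c₄) * S.red (algebraMap K F d₅), ?_⟩
    have e5 : ((1 + x) ^ p - 1) / algebraMap K F d =
        ((1 + x) ^ p - 1) / algebraMap K F (c₄ ^ p) * algebraMap K F d₅ ^ p := by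
      rw [← map_pow, hd₅, map_div₀]
      field_simp
    rw [e5, red_mul hZ (pow_mem hd₅O p), hZr, red_pow hd₅O, mul_pow]

end OneSide2

/-! ### two-sided lemmas -/

section TwoSide

variable {K F k Fk₁ Fk₂ : Type*} [Field K] [Field F] [Algebra K F]
  [Field k] [Field Fk₁] [Algebra k Fk₁] [Field Fk₂] [Algebra k Fk₂] {ι : Type*}
  {N : NodalSetup K F k Fk₁ Fk₂ ι} {g : ℕ} {p : ℕ}

/-- `p`-th roots of a nodal pair form a nodal pair. -/
theorem isNodalFn_of_pow (hp : p.Prime) (hk : (p : k) = 0) (hkp : ∀ c : k, ∃ d : k, d ^ p = c)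
    {a₁ : Fk₁} {a₂ : Fk₂} (h : N.IsNodalFn (a₁ ^ p) (a₂ ^ p)) : N.IsNodalFn a₁ a₂ := by
  intro i
  obtain ⟨h1, h2, c, hc₁, hc₂⟩ := h i
  obtain ⟨c', rfl⟩ := hkp c
  exact ⟨ord_nonneg_of_pow hp _ h1, ord_nonneg_of_pow hp _ h2, c',
    valAt_of_pow hp hk _ hc₁, valAt_of_pow hp hk _ hc₂⟩

/-- **the core**: a function of `O₁ ∩ O₂`, regular off the discs of the `Rb j`, with poles of
order `≤ p` at the `Rb j` (after reduction), vanishing at `P0`, whose reductions are
`a_i ^ p + c₀ a_i` for a nodal pair `(a₁, a₂)`: both reductions vanish. -/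
theorem core (NS : NodalNS N g) (hp : p.Prime) {f : F} (h₁ : f ∈ N.S₁.Ov) (h₂ : f ∈ N.S₂.Ov)
    {a₁ : Fk₁} {a₂ : Fk₂} (c₀ : k) (hnod : N.IsNodalFn a₁ a₂)
    (hr₁ : N.S₁.red f = a₁ ^ p + algebraMap k Fk₁ c₀ * a₁)
    (hr₂ : N.S₂.red f = a₂ ^ p + algebraMap k Fk₂ c₀ * a₂)
    (hreg : ∀ v, (∀ j, N.r v ≠ some (NS.Rb j)) → 0 ≤ v.ord f)
    (hpole : ∀ j, -(p : ℤ) ≤ ordRed N (NS.Rb j) f)
    (hz : 0 < NS.P0.ord f) : N.S₁.red f = 0 ∧ N.S₂.red f = 0 := by
  have hsm : ∀ X, IsSm N X → (∀ j, NS.Rb j ≠ X) → 0 ≤ ordRed N X f := fun X hX hne =>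
    ordRed_nonneg N X hX (fun P hP => hreg P (fun j h' => hne j (by
      rw [hP] at h'; exact (Option.some.inj h').symm)))
  obtain ⟨c, hc₁, hc₂⟩ := NS.nonspecial a₁ a₂ hnod (by
      intro Q hQ
      by_cases hs : ∀ i, Q ≠ N.s₁ i
      · have h := hsm (Sum.inl Q) hs hQ
        unfold ordRed at h
        rw [pairOrd_inl, hr₁] at h
        exact ord_nonneg_of_wp hp Q c₀ h
      · push Not at hs
        obtain ⟨i, rfl⟩ := hs
        exact (hnod i).1) (by
      intro Q hQ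
      by_cases hs : ∀ i, Q ≠ N.s₂ i
      · have h := hsm (Sum.inr Q) hs hQ
        unfold ordRed at h
        rw [pairOrd_inr, hr₂] at h
        exact ord_nonneg_of_wp hp Q c₀ h
      · push Not at hs
        obtain ⟨i, rfl⟩ := hs
        exact (hnod i).2.1) (by
      intro i
      have h := hpole i
      unfold ordRed at h
      revert h
      generalize NS.Rb i = X
      intro h
      cases X with
      | inl Q =>
        rw [pairOrd_inl, hr₁] at h
        exact ord_ge_neg_one_of_wp hp Q c₀ h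
      | inr Q =>
        rw [pairOrd_inr, hr₂] at h
        exact ord_ge_neg_one_of_wp hp Q c₀ h)
  have e₁ : N.S₁.red f = algebraMap k Fk₁ (c ^ p + c₀ * c) := by
    rw [hr₁, hc₁, map_add, map_mul, map_pow]
  have e₂ : N.S₂.red f = algebraMap k Fk₂ (c ^ p + c₀ * c) := by
    rw [hr₂, hc₂, map_add, map_mul, map_pow]
  by_contra hcon
  have hne : N.S₁.red f ≠ 0 ∨ N.S₂.red f ≠ 0 := by
    by_contra h
    push Not at h
    exact hcon h
  refine kl_final₂ NS Finset.univ h₁ h₂ hne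
    (fun v hv => hreg v (fun j => hv j (Finset.mem_univ j))) ?_ hz
  intro j _
  unfold ordRed
  rw [e₁, e₂]
  generalize NS.Rb j = X
  cases X with
  | inl Q => rw [pairOrd_inl, Fermat.Agent.S24Res.ord_algebraMap]; norm_num
  | inr Q => rw [pairOrd_inr, Fermat.Agent.S24Res.ord_algebraMap]; norm_num

/-! ### Jacobi-form divisors -/

section Jacobi

variable (NS : NodalNS N g) {m : ℕ} {P : Fin g → Place K F}
  (hP : ∀ i, N.r (P i) = some (NS.Rb i)) {u₀ : F}
  (hdiv : ∀ v : Place K F, v.ord u₀ =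
    m * ∑ i, (Finsupp.single (P i) (1 : ℤ) v - Finsupp.single (NS.R i) (1 : ℤ) v))

include hP hdiv

/-- `u₀` has neither zero nor pole off the discs. -/
theorem jac_off (v : Place K F) (hv : ∀ j, N.r v ≠ some (NS.Rb j)) : v.ord u₀ = 0 := by
  rw [hdiv, Finset.sum_eq_zero, mul_zero]
  intro i _
  have h1 : v ≠ P i := fun e => hv i (by rw [e]; exact hP i)
  have h2 : v ≠ NS.R i := fun e => hv i (by rw [e]; exact NS.r_R i)
  rw [Finsupp.single_eq_of_ne h1, Finsupp.single_eq_of_ne h2, sub_self]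

/-- the divisor of `u₀` on the disc of `Rb j`. -/
theorem jac_on (j : Fin g) (v : Place K F) (hv : N.r v = some (NS.Rb j)) :
    v.ord u₀ = m * (Finsupp.single (P j) (1 : ℤ) v - Finsupp.single (NS.R j) (1 : ℤ) v) := by
  rw [hdiv, Finset.sum_eq_single j]
  · intro i _ hij
    have hne : N.r v ≠ some (NS.Rb i) := by
      rw [hv]
      exact fun e => hij (NS.Rb_inj (Option.some.inj e)).symm
    have h1 : v ≠ P i := fun e => hne (by rw [e]; exact hP i)
    have h2 : v ≠ NS.R i := fun e => hne (by rw [e]; exact NS.r_R i)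
    rw [Finsupp.single_eq_of_ne h1, Finsupp.single_eq_of_ne h2, sub_self]
  · intro h
    exact absurd (Finset.mem_univ j) h

/-- the push-forward of the divisor of `u₀` vanishes. -/
theorem jac_disc (j : Fin g) :
    Finsupp.mapDomain N.r (divOf N.S₁.hF u₀) (some (NS.Rb j)) = 0 := by
  have hD : divOf N.S₁.hF u₀ =
      (m : ℤ) • ∑ i, (Finsupp.single (P i) (1 : ℤ) - Finsupp.single (NS.R i) (1 : ℤ)) := by
    ext v
    rw [divOf_apply, hdiv, Finsupp.smul_apply, Finsupp.finsetSum_apply, smul_eq_mul]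
    simp only [Finsupp.sub_apply]
  have h0 : ∀ i, Finsupp.mapDomain N.r
      (Finsupp.single (P i) (1 : ℤ) - Finsupp.single (NS.R i) (1 : ℤ)) = 0 := by
    intro i
    rw [sub_eq_add_neg, ← Finsupp.single_neg, Finsupp.mapDomain_add, Finsupp.mapDomain_single,
      Finsupp.mapDomain_single, hP i, NS.r_R i, Finsupp.single_neg, add_neg_cancel]
  rw [hD, Finsupp.mapDomain_smul, Finsupp.mapDomain_finsetSum]
  simp [h0]

/-- a `P0`-normalised Jacobi generator is a unit of both valuation rings. -/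
theorem jac_isU₂ (hu₀ : u₀ ≠ 0) (hP0 : 0 < NS.P0.ord (u₀ - 1)) : IsU₂ N u₀ := by
  obtain ⟨c, hc0, hU, hval⟩ := kl_normalise₂ NS Finset.univ hu₀
    (fun v hv => jac_off NS hP hdiv v (fun j => hv j (Finset.mem_univ j)))
    (fun j _ => jac_disc NS hP hdiv j)
  have hcF : algebraMap K F c ≠ 0 := by simpa using hc0
  have hc1 : c - 1 = 0 := by
    refine kl_const_eq_zero_of_ord_pos NS.P0 hP0 ?_
    rcases hval with h | h
    · left
      rw [div_eq_one_iff_eq hcF] at h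
      rw [h, map_sub, map_one]
    · right
      have e : u₀ - 1 - algebraMap K F (c - 1) =
          algebraMap K F c * (u₀ / algebraMap K F c - 1) := by
        rw [map_sub, map_one]
        field_simp
        ring
      rw [e, kl_ord_const_mul NS.P0 hc0]
      exact h
  have hc : c = 1 := sub_eq_zero.mp hc1
  rw [hc, map_one, div_one] at hU
  exact hU

/-- the reductions of a `P0`-normalised Jacobi generator are `1`. -/
theorem jac_red (hu₀ : u₀ ≠ 0) (hP0 : 0 < NS.P0.ord (u₀ - 1)) :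
    N.S₁.red u₀ = 1 ∧ N.S₂.red u₀ = 1 := by
  have hU := jac_isU₂ NS hP hdiv hu₀ hP0
  have h₁ : u₀ - 1 ∈ N.S₁.Ov := sub_mem hU.u₁.mem (one_mem _)
  have h₂ : u₀ - 1 ∈ N.S₂.Ov := sub_mem hU.u₂.mem (one_mem _)
  have hr₁ : N.S₁.red (u₀ - 1) = N.S₁.red u₀ - 1 := by
    rw [N.S₁.red_sub hU.u₁.mem (one_mem _), N.S₁.red_one]
  have hr₂ : N.S₂.red (u₀ - 1) = N.S₂.red u₀ - 1 := by
    rw [N.S₂.red_sub hU.u₂.mem (one_mem _), N.S₂.red_one]
  by_contra hcon
  have hne : N.S₁.red (u₀ - 1) ≠ 0 ∨ N.S₂.red (u₀ - 1) ≠ 0 := by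
    by_contra h
    push Not at h
    apply hcon
    rw [hr₁, hr₂, sub_eq_zero, sub_eq_zero] at h
    exact h
  refine kl_final₂ NS Finset.univ h₁ h₂ hne ?_ ?_ hP0
  · intro v hv
    exact ord_nonneg_sub v (jac_off NS hP hdiv v (fun j => hv j (Finset.mem_univ j))).ge
      (ord_one_nonneg v)
  · intro j _
    have hsm := isSm_of_r N (NS.r_R j)
    have hd := jac_disc NS hP hdiv j
    have key : 0 ≤ ordRed N (NS.Rb j) (u₀ - 1) := by
      unfold ordRed
      rw [hr₁, hr₂]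
      revert hd hsm
      generalize NS.Rb j = X
      intro hsm hd
      cases X with
      | inl Q =>
        rw [pairOrd_inl]
        have h0 : Q.ord (N.S₁.red u₀) = 0 :=
          (push_eq (S := side₁ N) hU.u₁ Q hsm).symm.trans hd
        exact ord_nonneg_sub Q h0.ge (ord_one_nonneg Q)
      | inr Q =>
        rw [pairOrd_inr]
        have h0 : Q.ord (N.S₂.red u₀) = 0 :=
          (push_eq (S := side₂ N) hU.u₂ Q hsm).symm.trans hd
        exact ord_nonneg_sub Q h0.ge (ord_one_nonneg Q)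
    omega

/-- `(u₀ - 1) / d` is regular off the discs. -/
theorem jac_reg {d : K} (hd0 : d ≠ 0) (v : Place K F) (hv : ∀ j, N.r v ≠ some (NS.Rb j)) :
    0 ≤ v.ord ((u₀ - 1) / algebraMap K F d) := by
  rw [kl_ord_div_const v hd0]
  exact ord_nonneg_sub v (jac_off NS hP hdiv v hv).ge (ord_one_nonneg v)

/-- the reductions of `(u₀ - 1) / d` have poles of order at most `m` at the `Rb j`. -/
theorem jac_pole {d : K} (hd0 : d ≠ 0) (j : Fin g) :
    -(m : ℤ) ≤ ordRed N (NS.Rb j) ((u₀ - 1) / algebraMap K F d) := by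
  have hsm := isSm_of_r N (NS.r_R j)
  have hm0 : -(m : ℤ) ≤ 0 := by omega
  -- the bound on the disc
  have hb : ∀ v, N.r v = some (NS.Rb j) →
      0 ≤ v.ord ((u₀ - 1) / algebraMap K F d * NS.t j ^ m) := by
    intro v hv
    have htU := kl_t_isU₂ NS j
    have ht0 : NS.t j ≠ 0 := htU.u₁.ne_zero
    by_cases hf0 : (u₀ - 1) / algebraMap K F d = 0
    · rw [hf0, zero_mul, Place.ord_zero]
    rw [v.ord_mul hf0 (pow_ne_zero m ht0), kl_ord_pow, kl_ord_div_const v hd0]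
    have h1 : -(m : ℤ) * Finsupp.single (NS.R j) (1 : ℤ) v ≤ v.ord (u₀ - 1) := by
      by_cases hvR : v = NS.R j
      · subst hvR
        rw [Finsupp.single_eq_same, mul_one]
        refine kl_ord_sub_ge_of_ge _ hm0 ?_ (by rw [Place.ord_one]; exact hm0)
        rw [jac_on NS hP hdiv j _ hv, Finsupp.single_eq_same]
        have : (0 : ℤ) ≤ Finsupp.single (P j) (1 : ℤ) (NS.R j) := by
          by_cases e : P j = NS.R j
          · rw [e, Finsupp.single_eq_same]; norm_num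
          · rw [Finsupp.single_eq_of_ne (Ne.symm e)]
        nlinarith
      · rw [Finsupp.single_eq_of_ne hvR, mul_zero]
        refine ord_nonneg_sub v ?_ (ord_one_nonneg v)
        rw [jac_on NS hP hdiv j v hv, Finsupp.single_eq_of_ne hvR, sub_zero]
        have : (0 : ℤ) ≤ Finsupp.single (P j) (1 : ℤ) v := by
          by_cases e : v = P j
          · rw [e, Finsupp.single_eq_same]; norm_num
          · rw [Finsupp.single_eq_of_ne e]
        positivity
    have h2 : Finsupp.single (NS.R j) (1 : ℤ) v ≤ v.ord (NS.t j) := by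
      by_cases hvR : v = NS.R j
      · subst hvR
        rw [Finsupp.single_eq_same]
        have := NS.t_R j
        omega
      · rw [Finsupp.single_eq_of_ne hvR]
        exact NS.t_reg j j v hv
    nlinarith
  have hord := NS.ord_t_self j
  unfold ordRed
  revert hb hsm hord
  generalize NS.Rb j = X
  intro hsm hb hord
  cases X with
  | inl Q =>
    rw [pairOrd_inl] at hord ⊢
    by_cases h0 : N.S₁.red ((u₀ - 1) / algebraMap K F d) = 0
    · rw [h0, Place.ord_zero]; exact hm0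
    · have hU : (side₁ N).IsU ((u₀ - 1) / algebraMap K F d) :=
        isU_of_red_ne_zero (S := side₁ N) (ValSetup.mem_of_red_ne_zero _ h0) h0
      exact ord_red_ge_of_param (S := side₁ N) Q hsm hU (kl_t_isU₂ NS j).u₁ m hb hord
  | inr Q =>
    rw [pairOrd_inr] at hord ⊢
    by_cases h0 : N.S₂.red ((u₀ - 1) / algebraMap K F d) = 0
    · rw [h0, Place.ord_zero]; exact hm0
    · have hU : (side₂ N).IsU ((u₀ - 1) / algebraMap K F d) :=
        isU_of_red_ne_zero (S := side₂ N) (ValSetup.mem_of_red_ne_zero _ h0) h0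
      exact ord_red_ge_of_param (S := side₂ N) Q hsm hU (kl_t_isU₂ NS j).u₂ m hb hord

end Jacobi

end TwoSide

end PLv

end Fermat.Agent.BadRed
end
end MergeWrap_Lib_BadRed_Nodal_P_LevelAux

section MergeWrap_Lib_BadRed_Nodal_P_Level -- from Lib/BadRed/Nodal/P/Level.lean

set_option autoImplicit false

/-!
# S33-new, seat P-L (helper42): the LEVEL lemma (L) and the AS-KEY lemma (AS)

Residue characteristic `p`, `lam` a uniformiser of `ℚ_p(ζ_p)` (`IsCycloUnif N p lam`),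
`δ = lam ^ p` the critical level.  `K` has `p`-th roots (`K = ℚ̄` in the application).

* `PTor.level : LevelStatement N g NS p lam` — the `P0`-normalised generator `u₀` of a Jacobi-form
  divisor `p ∑ (P i - R i)` which is split (`IsSplitFn`) has level `≥ δ`.
* `PTor.asKey : ASKeyStatement N p lam` — an ordinary divisor `D` of degree `0` with trivial
  reduction and `p D = div u`, `u ≡ 1 mod δ 𝔪` for both valuations, is principal
  (from Jacobi inversion `NJ.nodalJacobi` and the high-level key lemma `PTor.highLevel`).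

Design: helper66's note "S33-new, elementary proof of COV", steps (L) and (AS).
-/

noncomputable section

open AlgebraicCurve Fermat.Agent.RR Fermat.Agent.Deuring

namespace Fermat.Agent.BadRed

namespace PTor

open NK NKP PLv
open Fermat.Agent.S18Key (ord_neg' ord_nonneg_add ord_nonneg_sub ord_nonneg_mul ord_const_nonneg
  ord_one_nonneg ord_add_ge_of_ge ord_add_eq_of_lt mapDomain_apply_eq_sum sum_le_mapDomain
  mapDomain_nonneg le_mapDomain add_le_mapDomain kl_ord_const_mul kl_ord_mul_const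
  kl_ord_div_const kl_ord_sum_ge kl_ord_prod kl_ord_pow kl_ord_sub_ge_of_ge
  kl_ne_zero_of_ord_ne_zero kl_const_eq_zero_of_ord_pos)

variable {K F k Fk₁ Fk₂ : Type*} [Field K] [Field F] [Algebra K F]
  [Field k] [Field Fk₁] [Algebra k Fk₁] [Field Fk₂] [Algebra k Fk₂] {ι : Type*}

/-- the residue field is perfect if `K` has `p`-th roots. -/
theorem perfect_of_roots (N : NodalSetup K F k Fk₁ Fk₂ ι) {p : ℕ} (hp : p ≠ 0)
    (hK : ∀ c : K, ∃ d : K, d ^ p = c) (c : k) : ∃ d : k, d ^ p = c := by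
  obtain ⟨⟨c', hc'⟩, rfl⟩ := N.S₁.res_surj c
  obtain ⟨d', hd'⟩ := hK c'
  have hd'A : d' ∈ N.S₁.A := by
    refine (const_mem_iff (S := side₁ N) d').mp ?_
    apply mem_of_pow_mem (S := side₁ N) hp
    rw [← map_pow, hd']
    exact (const_mem_iff (S := side₁ N) _).mpr hc'
  refine ⟨N.S₁.res ⟨d', hd'A⟩, ?_⟩
  rw [← map_pow]
  congr 1
  exact Subtype.ext hd'

/-- the basic facts on `lam`, both sides. -/
theorem cyclo_facts {N : NodalSetup K F k Fk₁ Fk₂ ι} {p : ℕ} {lam : K}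
    (h : IsCycloUnif N p lam) :
    InMax (side₁ N).A lam ∧ InMax (side₂ N).A lam ∧ (p : K) / lam ^ (p - 1) ∈ (side₁ N).A ∧
      (p : K) / lam ^ (p - 1) ∈ (side₂ N).A ∧ (p : k) = 0 := by
  have h1 : InMax (side₁ N).A lam := ⟨h.mem, h.inv_not_mem⟩
  have h2 : InMax (side₂ N).A lam :=
    ⟨(mem_A₂_iff N _).mpr h.mem, fun hh => h.inv_not_mem ((mem_A₂_iff N _).mp hh)⟩
  have h3 : (p : K) / lam ^ (p - 1) ∈ (side₁ N).A := h.kappa_mem
  refine ⟨h1, h2, h3, (mem_A₂_iff N _).mpr h.kappa_mem, ?_⟩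
  exact cast_p_eq_zero (S := side₁ N) (inMax_p (S := side₁ N) h.prime h.p_ne_zero h1 h3)

/-- **(L) the level of a split Jacobi generator is at least the critical level.** -/
theorem level (N : NodalSetup K F k Fk₁ Fk₂ ι) (g : ℕ) (NS : NodalNS N g) (p : ℕ) (lam : K)
    (h : IsCycloUnif N p lam) (hK : ∀ c : K, ∃ d : K, d ^ p = c) :
    LevelStatement N g NS p lam := by
  intro P hP u₀ hu₀ hdiv hP0 hsplit
  have hp := h.prime
  obtain ⟨hlm₁, hlm₂, hκ₁, hκ₂, hk⟩ := cyclo_facts h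
  have hkp := perfect_of_roots N hp.ne_zero hK
  have hU := jac_isU₂ NS hP hdiv hu₀ hP0
  obtain ⟨hr₁, hr₂⟩ := jac_red NS hP hdiv hu₀ hP0
  have hu1 : u₀ - 1 ≠ 0 := by
    intro h0
    rw [h0, Place.ord_zero] at hP0
    exact lt_irrefl _ hP0
  obtain ⟨d, hd0, hd₁, hd₂, hne⟩ := exists_scale₂ N hu1
  have hdF : algebraMap K F d ≠ 0 := by simpa using hd0
  have hδ0 : lam ^ p ≠ 0 := pow_ne_zero _ h.ne_zero
  have hδF : algebraMap K F (lam ^ p) ≠ 0 := (map_ne_zero _).mpr hδ0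
  by_contra hlev
  have hn : d / lam ^ p ∉ N.S₁.A := by
    intro hmem
    apply hlev
    have e : (u₀ - 1) / algebraMap K F (lam ^ p) =
        (u₀ - 1) / algebraMap K F d * algebraMap K F (d / lam ^ p) := by
      rw [map_div₀]
      field_simp
    constructor
    · rw [e]; exact mul_mem hd₁ ((N.S₁.mem_Ov_iff _).mpr hmem)
    · rw [e]; exact mul_mem hd₂ ((N.S₂.mem_Ov_iff _).mpr ((mem_A₂_iff N _).mpr hmem))
  have hδd : InMax N.S₁.A (lam ^ p / d) := by
    refine ⟨?_, by rwa [inv_div]⟩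
    rcases N.S₁.A.mem_or_inv_mem (d / lam ^ p) with h' | h'
    · exact absurd h' hn
    · rwa [inv_div] at h'
  have hδd₂ : InMax N.S₂.A (lam ^ p / d) :=
    ⟨(mem_A₂_iff N _).mpr hδd.1, fun hh => hδd.2 ((mem_A₂_iff N _).mp hh)⟩
  obtain ⟨a₁, ha₁⟩ := exists_root_red (S := side₁ N) hp h.p_ne_zero hlm₁ hκ₁ hK hU.u₁ hr₁
    hsplit.1 hd0 hδd hd₁
  obtain ⟨a₂, ha₂⟩ := exists_root_red (S := side₂ N) hp h.p_ne_zero hlm₂ hκ₂ hK hU.u₂ hr₂
    hsplit.2 hd0 hδd₂ hd₂
  rw [side₁_red] at ha₁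
  rw [side₂_red] at ha₂
  have hnod' : N.IsNodalFn (a₁ ^ p) (a₂ ^ p) := by
    rw [← ha₁, ← ha₂]
    exact N.node _ hd₁ hd₂ (fun P' hP' => jac_reg NS hP hdiv hd0 P' (fun j => by rw [hP']; simp))
  have hnod := isNodalFn_of_pow hp hk hkp hnod'
  have hz : 0 < NS.P0.ord ((u₀ - 1) / algebraMap K F d) := by
    rw [kl_ord_div_const _ hd0]
    exact hP0
  obtain ⟨z₁, z₂⟩ := core NS hp hd₁ hd₂ (0 : k) hnod
    (by rw [map_zero, zero_mul, add_zero]; exact ha₁)
    (by rw [map_zero, zero_mul, add_zero]; exact ha₂)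
    (jac_reg NS hP hdiv hd0) (jac_pole NS hP hdiv hd0) hz
  rcases hne with h' | h'
  · exact h' z₁
  · exact h' z₂

/-- a function with an ordinary divisor has no pole in the annuli after subtracting `1`. -/
theorem ord_sub_one_nonneg_of_ord_eq_zero {P' : Place K F} {φ : F} (h0 : P'.ord φ = 0) (c : K)
    (hc : c ≠ 0) : 0 ≤ P'.ord ((φ - 1) / algebraMap K F c) := by
  rw [kl_ord_div_const P' hc]
  exact ord_nonneg_sub P' h0.ge (ord_one_nonneg P')

/-- **(AS)**: an ordinary divisor of degree `0` with trivial reduction, `p D = div u` with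
`u ≡ 1 mod lam ^ p 𝔪` for both valuations, is principal. -/
theorem asKey (N : NodalSetup K F k Fk₁ Fk₂ ι) (NS : NodalNS N (genusFF K F)) (p : ℕ) (lam : K)
    (h : IsCycloUnif N p lam) (hK : ∀ c : K, ∃ d : K, d ^ p = c) :
    ASKeyStatement N p lam := by
  intro D hdeg hred u hu hdivu hlev
  have hp := h.prime
  obtain ⟨hlm₁, hlm₂, hκ₁, hκ₂, hk⟩ := cyclo_facts h
  have hl0 : lam ≠ 0 := h.ne_zero
  have hlF : algebraMap K F lam ≠ 0 := (map_ne_zero _).mpr hl0
  have hδ0 : lam ^ p ≠ 0 := pow_ne_zero _ hl0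
  have hδF : algebraMap K F (lam ^ p) ≠ 0 := (map_ne_zero _).mpr hδ0
  have hδm₁ : InMax (side₁ N).A (lam ^ p) := hlm₁.pow hp.ne_zero
  have hδm₂ : InMax (side₂ N).A (lam ^ p) := hlm₂.pow hp.ne_zero
  obtain ⟨φ₀, P, hφ₀, hP, hE⟩ := NJ.nodalJacobi N _ NS rfl D hdeg hred
  -- the generator of the Jacobi form
  have hu₁0 : u * φ₀ ^ p ≠ 0 := mul_ne_zero hu (pow_ne_zero _ hφ₀)
  have hdiv₁ : ∀ v : Place K F, v.ord (u * φ₀ ^ p) =
      p * ∑ i, (Finsupp.single (P i) (1 : ℤ) v - Finsupp.single (NS.R i) (1 : ℤ) v) := by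
    intro v
    rw [v.ord_mul hu (pow_ne_zero _ hφ₀), kl_ord_pow, hdivu, ← hE v]
    ring
  obtain ⟨c, hc0, -, hval⟩ := kl_normalise₂ NS Finset.univ hu₁0
    (fun v hv => jac_off NS hP hdiv₁ v (fun j => hv j (Finset.mem_univ j)))
    (fun j _ => jac_disc NS hP hdiv₁ j)
  obtain ⟨c₁, hc₁⟩ := hK c
  have hc₁0 : c₁ ≠ 0 := by
    rintro rfl
    rw [zero_pow hp.ne_zero] at hc₁
    exact hc0 hc₁.symm
  have hc₁F : algebraMap K F c₁ ≠ 0 := (map_ne_zero _).mpr hc₁0
  have hcF : algebraMap K F c ≠ 0 := (map_ne_zero _).mpr hc0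
  set φ : F := φ₀ / algebraMap K F c₁ with hφdef
  have hφ0 : φ ≠ 0 := div_ne_zero hφ₀ hc₁F
  have hφord : ∀ v : Place K F, v.ord φ = v.ord φ₀ := fun v => kl_ord_div_const v hc₁0 φ₀
  set u' : F := u * φ ^ p with hu'def
  have hu'e : u' = u * φ₀ ^ p / algebraMap K F c := by
    rw [hu'def, hφdef, div_pow, ← map_pow, hc₁]
    ring
  have hu'0 : u' ≠ 0 := mul_ne_zero hu (pow_ne_zero _ hφ0)
  have hdiv' : ∀ v : Place K F, v.ord u' =
      p * ∑ i, (Finsupp.single (P i) (1 : ℤ) v - Finsupp.single (NS.R i) (1 : ℤ) v) := by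
    intro v
    rw [hu'e, kl_ord_div_const v hc0, hdiv₁]
  have hE' : ∀ v : Place K F, D v + v.ord φ =
      ∑ i, (Finsupp.single (P i) (1 : ℤ) v - Finsupp.single (NS.R i) (1 : ℤ) v) := by
    intro v
    rw [hφord]
    exact hE v
  rw [← hu'e] at hval
  -- the conclusion from `P i = R i`
  have hfin : (∀ i, P i = NS.R i) → D ∈ Divisor.principal (K := K) (F := F) := by
    intro hmain
    refine ⟨φ⁻¹, inv_ne_zero hφ0, fun v => ?_⟩
    rw [v.ord_inv]
    have h' := hE' v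
    rw [Finset.sum_eq_zero (fun i _ => by rw [hmain i, sub_self])] at h'
    omega
  have hpZ : (p : ℤ) ≠ 0 := by exact_mod_cast hp.ne_zero
  rcases hval with h1 | hP0
  · -- `u' = 1`
    apply hfin
    intro j
    by_contra hne
    have h' := jac_on NS hP hdiv' j (P j) (hP j)
    rw [h1, Place.ord_one, Finsupp.single_eq_same, Finsupp.single_eq_of_ne hne, sub_zero,
      mul_one] at h'
    exact hpZ h'.symm
  -- `u'` is a `1`-unit
  have hU' := jac_isU₂ NS hP hdiv' hu'0 hP0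
  obtain ⟨hr'₁, hr'₂⟩ := jac_red NS hP hdiv' hu'0 hP0
  -- `u` is a `1`-unit
  obtain ⟨⟨hm₁, hm₁r⟩, ⟨hm₂, hm₂r⟩⟩ := hlev
  set m₁ : F := (u - 1) / algebraMap K F (lam ^ p) with hm₁def
  have hue : u = 1 + algebraMap K F (lam ^ p) * m₁ := by
    rw [hm₁def]
    field_simp
    ring
  obtain ⟨hu₁, hur₁⟩ := red_add_const_mul (S := side₁ N) (Y := 1) (one_mem _) hm₁ hδm₁.1 hδm₁.2
  obtain ⟨hu₂, hur₂⟩ := red_add_const_mul (S := side₂ N) (Y := 1) (one_mem _) hm₂ hδm₂.1 hδm₂.2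
  rw [← hue, red_one] at hur₁ hur₂
  rw [← hue] at hu₁ hu₂
  have hUu₁ : (side₁ N).IsU u := isU_of_red_ne_zero hu₁ (by rw [hur₁]; exact one_ne_zero)
  have hUu₂ : (side₂ N).IsU u := isU_of_red_ne_zero hu₂ (by rw [hur₂]; exact one_ne_zero)
  -- `φ` is a `1`-unit
  have hφp : φ ^ p = u' / u := by
    rw [hu'def, mul_comm, mul_div_assoc, div_self hu, mul_one]
  have hφpU₁ : (side₁ N).IsU (φ ^ p) := by rw [hφp]; exact hU'.u₁.div hUu₁
  have hφpU₂ : (side₂ N).IsU (φ ^ p) := by rw [hφp]; exact hU'.u₂.div hUu₂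
  have hφpr₁ : (side₁ N).red (φ ^ p) = 1 := by
    have h1 : (side₁ N).red u * (side₁ N).red (φ ^ p) = (side₁ N).red u' := by
      rw [← red_mul hu₁ hφpU₁.mem]
    rw [hur₁, one_mul] at h1
    rw [h1]
    exact hr'₁
  have hφpr₂ : (side₂ N).red (φ ^ p) = 1 := by
    have h1 : (side₂ N).red u * (side₂ N).red (φ ^ p) = (side₂ N).red u' := by
      rw [← red_mul hu₂ hφpU₂.mem]
    rw [hur₂, one_mul] at h1
    rw [h1]
    exact hr'₂
  obtain ⟨hφ₁, hφr₁⟩ := red_eq_one_of_pow (S := side₁ N) hp hk hφpU₁.mem hφpr₁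
  obtain ⟨hφ₂, hφr₂⟩ := red_eq_one_of_pow (S := side₂ N) hp hk hφpU₂.mem hφpr₂
  set x : F := φ - 1 with hxdef
  have hx₁ : x ∈ (side₁ N).Ov := sub_mem hφ₁ (one_mem _)
  have hx₂ : x ∈ (side₂ N).Ov := sub_mem hφ₂ (one_mem _)
  have hφx : φ = 1 + x := by rw [hxdef]; ring
  -- `φ` has neither zero nor pole in the annuli
  have hann : ∀ P' : Place K F, N.r P' = none → P'.ord φ = 0 := by
    intro P' hP'
    have hD0 : D P' = 0 := by
      by_contra hD
      obtain ⟨Q, hQ⟩ := hred.1 P' hD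
      rw [hP'] at hQ
      exact Option.some_ne_none _ hQ.symm
    have h' := hE' P'
    rw [hD0, zero_add, Finset.sum_eq_zero] at h'
    · exact h'
    · intro i _
      have h1 : P' ≠ P i := fun e => by rw [e, hP i] at hP'; exact Option.some_ne_none _ hP'
      have h2 : P' ≠ NS.R i := fun e => by rw [e, NS.r_R i] at hP'; exact Option.some_ne_none _ hP'
      rw [Finsupp.single_eq_of_ne h1, Finsupp.single_eq_of_ne h2, sub_self]
  -- the identity `u' - 1 = (φ ^ p - 1) + δ m₁ φ ^ p`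
  have hz : ∀ d : K, d ≠ 0 → 0 < NS.P0.ord ((u' - 1) / algebraMap K F d) := by
    intro d hd
    rw [kl_ord_div_const _ hd]
    exact hP0
  by_cases hhi : x / algebraMap K F lam ∈ N.S₁.Ov ∧ x / algebraMap K F lam ∈ N.S₂.Ov
  · -- the critical case
    obtain ⟨hB₁, hB₂⟩ := hhi
    set B : F := x / algebraMap K F lam with hBdef
    have hφB : φ = 1 + algebraMap K F lam * B := by
      rw [hφx, hBdef]
      field_simp
    obtain ⟨hC₁, hCr₁⟩ := red_crit (S := side₁ N) hp hlm₁ hκ₁ hB₁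
    obtain ⟨hC₂, hCr₂⟩ := red_crit (S := side₂ N) hp hlm₂ hκ₂ hB₂
    rw [← hφB] at hC₁ hCr₁ hC₂ hCr₂
    have hEe : (u' - 1) / algebraMap K F (lam ^ p) =
        (φ ^ p - 1) / algebraMap K F (lam ^ p) + m₁ * φ ^ p := by
      rw [hu'def, hm₁def]
      field_simp
      ring
    have hE₁ : (u' - 1) / algebraMap K F (lam ^ p) ∈ N.S₁.Ov := by
      rw [hEe]; exact add_mem hC₁ (mul_mem hm₁ hφpU₁.mem)
    have hE₂ : (u' - 1) / algebraMap K F (lam ^ p) ∈ N.S₂.Ov := by
      rw [hEe]; exact add_mem hC₂ (mul_mem hm₂ hφpU₂.mem)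
    have hκ₂' : (p : K) / lam ^ (p - 1) ∈ N.S₂.A := hκ₂
    have hEr₁ : N.S₁.red ((u' - 1) / algebraMap K F (lam ^ p)) =
        N.S₁.red B ^ p + algebraMap k Fk₁ (N.S₁.res ⟨_, h.kappa_mem⟩) * N.S₁.red B := by
      rw [hEe, N.S₁.red_add hC₁ (mul_mem hm₁ hφpU₁.mem), N.S₁.red_mul hm₁ hφpU₁.mem, hm₁r,
        zero_mul, add_zero]
      rw [← side₁_red, hCr₁, red_const (S := side₁ N) h.kappa_mem]
      rfl
    have hEr₂ : N.S₂.red ((u' - 1) / algebraMap K F (lam ^ p)) =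
        N.S₂.red B ^ p + algebraMap k Fk₂ (N.S₁.res ⟨_, h.kappa_mem⟩) * N.S₂.red B := by
      rw [hEe, N.S₂.red_add hC₂ (mul_mem hm₂ hφpU₂.mem), N.S₂.red_mul hm₂ hφpU₂.mem, hm₂r,
        zero_mul, add_zero]
      rw [← side₂_red, hCr₂, red_const (S := side₂ N) hκ₂, N.res_eq _ h.kappa_mem hκ₂']
      rfl
    have hnod : N.IsNodalFn (N.S₁.red B) (N.S₂.red B) :=
      N.node B hB₁ hB₂ (fun P' hP' => ord_sub_one_nonneg_of_ord_eq_zero (hann P' hP') lam hl0)
    obtain ⟨z₁, z₂⟩ := core NS hp hE₁ hE₂ _ hnod hEr₁ hEr₂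
      (jac_reg NS hP hdiv' hδ0) (jac_pole NS hP hdiv' hδ0) (hz _ hδ0)
    exact hfin (highLevel N _ NS p lam h P hP u' hu'0 hdiv' hP0 ⟨⟨hE₁, z₁⟩, ⟨hE₂, z₂⟩⟩)
  · -- the low case: contradiction
    exfalso
    have hx0 : x ≠ 0 := by
      intro h0
      apply hhi
      rw [h0, zero_div]
      exact ⟨zero_mem _, zero_mem _⟩
    obtain ⟨c', hc'0, hxc₁, hxc₂, hne⟩ := exists_scale₂ N hx0
    have hc'F : algebraMap K F c' ≠ 0 := (map_ne_zero _).mpr hc'0
    have hn : c' / lam ∉ N.S₁.A := by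
      intro hmem
      apply hhi
      have e : x / algebraMap K F lam = x / algebraMap K F c' * algebraMap K F (c' / lam) := by
        rw [map_div₀]
        field_simp
      constructor
      · rw [e]; exact mul_mem hxc₁ ((N.S₁.mem_Ov_iff _).mpr hmem)
      · rw [e]; exact mul_mem hxc₂ ((N.S₂.mem_Ov_iff _).mpr ((mem_A₂_iff N _).mpr hmem))
    have hlc₁ : InMax (side₁ N).A (lam / c') := by
      refine ⟨?_, by rwa [inv_div]⟩
      rcases N.S₁.A.mem_or_inv_mem (c' / lam) with h' | h'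
      · exact absurd h' hn
      · rwa [inv_div] at h'
    have hlc₂ : InMax (side₂ N).A (lam / c') :=
      ⟨(mem_A₂_iff N _).mpr hlc₁.1, fun hh => hlc₁.2 ((mem_A₂_iff N _).mp hh)⟩
    obtain ⟨hZ₁, hZr₁⟩ := red_low (S := side₁ N) hp h.p_ne_zero hκ₁ hc'0 hlc₁ hx₁ hxc₁
    obtain ⟨hZ₂, hZr₂⟩ := red_low (S := side₂ N) hp h.p_ne_zero hκ₂ hc'0 hlc₂ hx₂ hxc₂
    rw [← hφx] at hZ₁ hZr₁ hZ₂ hZr₂
    have hc'p0 : c' ^ p ≠ 0 := pow_ne_zero _ hc'0
    have hc'pF : algebraMap K F (c' ^ p) ≠ 0 := (map_ne_zero _).mpr hc'p0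
    have hq₁ : InMax (side₁ N).A (lam ^ p / c' ^ p) := by
      rw [← div_pow]; exact hlc₁.pow hp.ne_zero
    have hq₂ : InMax (side₂ N).A (lam ^ p / c' ^ p) := by
      rw [← div_pow]; exact hlc₂.pow hp.ne_zero
    have hfe : (u' - 1) / algebraMap K F (c' ^ p) =
        (φ ^ p - 1) / algebraMap K F (c' ^ p) +
          algebraMap K F (lam ^ p / c' ^ p) * (m₁ * φ ^ p) := by
      rw [hu'def, hm₁def, map_div₀]
      field_simp
      ring
    obtain ⟨hf₁, hfr₁⟩ := red_add_const_mul (S := side₁ N) hZ₁ (mul_mem hm₁ hφpU₁.mem)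
      hq₁.1 hq₁.2
    obtain ⟨hf₂, hfr₂⟩ := red_add_const_mul (S := side₂ N) hZ₂ (mul_mem hm₂ hφpU₂.mem)
      hq₂.1 hq₂.2
    rw [← hfe] at hf₁ hfr₁ hf₂ hfr₂
    rw [hZr₁] at hfr₁
    rw [hZr₂] at hfr₂
    have hnod : N.IsNodalFn (N.S₁.red (x / algebraMap K F c')) (N.S₂.red (x / algebraMap K F c')) :=
      N.node _ hxc₁ hxc₂
        (fun P' hP' => ord_sub_one_nonneg_of_ord_eq_zero (hann P' hP') c' hc'0)
    obtain ⟨z₁, z₂⟩ := core NS hp hf₁ hf₂ (0 : k) hnod
      (by rw [map_zero, zero_mul, add_zero]; exact hfr₁)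
      (by rw [map_zero, zero_mul, add_zero]; exact hfr₂)
      (jac_reg NS hP hdiv' hc'p0) (jac_pole NS hP hdiv' hc'p0) (hz _ hc'p0)
    rw [side₁_red] at hfr₁
    rw [side₂_red] at hfr₂
    rw [z₁] at hfr₁
    rw [z₂] at hfr₂
    rcases hne with h' | h'
    · exact h' (pow_eq_zero_iff hp.ne_zero |>.mp hfr₁.symm)
    · exact h' (pow_eq_zero_iff hp.ne_zero |>.mp hfr₂.symm)

end PTor

end Fermat.Agent.BadRed
end
end MergeWrap_Lib_BadRed_Nodal_P_Level
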